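import Fermat.Agent.TWEuler.Psi
import Mathlib.SetTheory.Cardinal.Finite
import Mathlib.Algebra.BigOperators.GroupWithZero.Action

/-!
# Weights of retracts, permutation modules and lattices

Basic computations of weights: retracts, freely permuted sets, finite groups and lattices.
-/

set_option autoImplicit false

namespace Fermat.Agent.TWEuler

variable {p : ℕ} [Fact p.Prime] {G : Type*} [Group G] [Fintype G] {n : ℕ}

section Retract

variable {Z U : Type*} [AddCommGroup Z] [AddCommGroup U]
  {e : Matrix (Fin n) (Fin n) (MonoidAlgebra (ZMod p) G)} {act : G →* AddMonoid.End U}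

/-- The matrix over `𝔽_p[G]` with given coefficients. -/
noncomputable def ofCoef (c : Fin n → Fin n → G → ZMod p) :
    Matrix (Fin n) (Fin n) (MonoidAlgebra (ZMod p) G) :=
  fun i j => MonoidAlgebra.ofCoeff (Finsupp.equivFunOnFinite.symm (c i j))

omit [Fact (Nat.Prime p)] [Group G] in
@[simp] theorem ofCoef_coeff (c : Fin n → Fin n → G → ZMod p) (i j : Fin n) (g : G) :
    (ofCoef c i j).coeff g = c i j g := rfl

omit [Fact (Nat.Prime p)] in
/-- A retract of a sum of copies of `U` cut out by `e` is counted by `psi e`. -/
theorem psi_retract (π : Fin n → (Z →+ U)) (s : Fin n → (U →+ Z))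
    (h1 : ∀ z, ∑ j, s j (π j z) = z)
    (h2 : ∀ (v : Fin n → U) (i : Fin n), π i (∑ j, s j (v j)) = eAct e act v i) :
    Nat.card Z = psi e act := by
  let F : Z →+ (eAct e act).range :=
    ((AddMonoidHom.mk' (fun z i => π i z) fun a b => funext fun i => map_add _ a b) :
      Z →+ (Fin n → U)).codRestrict _ fun z =>
      ⟨fun j => π j z, funext fun i => by rw [← h2, h1]; rfl⟩
  refine Nat.card_congr (Equiv.ofBijective F ⟨fun a b h => ?_, ?_⟩)
  · rw [← h1 a, ← h1 b]
    exact Finset.sum_congr rfl fun j _ =>
      congrArg (s j) (congrFun (congrArg Subtype.val h) j)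
  · rintro ⟨_, v, rfl⟩
    exact ⟨∑ j, s j (v j), Subtype.ext (funext fun i => h2 v i)⟩

omit [Fact (Nat.Prime p)] in
/-- Scalar multiples of additive maps commute with sums of translates. -/
theorem eAct_ofCoef_apply (c : Fin n → Fin n → G → ZMod p) (v : Fin n → U) (i : Fin n) :
    eAct (ofCoef c) act v i = ∑ j, ∑ g, (c i j g).val • act g (v j) := rfl

end Retract

section Free

variable {X : Type*} [Finite X] {U : Type*}

/-- An idempotency test on a faithful module. -/
theorem mul_self_of_faithful [AddCommGroup U] [Module (ZMod p) U]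
    {e : Matrix (Fin n) (Fin n) (MonoidAlgebra (ZMod p) G)} {act : G →* AddMonoid.End U}
    (hf : ∀ a : G → ZMod p, (∀ u, ∑ g, (a g).val • act g u = 0) → a = 0)
    (h : ∀ v, eAct e act (eAct e act v) = eAct e act v) : e * e = e := by
  classical
  refine Matrix.ext fun i j => MonoidAlgebra.coeff_injective (Finsupp.ext fun g => ?_)
  suffices H : (fun g => ((e * e) i j).coeff g - (e i j).coeff g) = 0 from
    sub_eq_zero.1 (congrFun H g)
  refine hf _ fun u => ?_
  have key : ∀ f : Matrix (Fin n) (Fin n) (MonoidAlgebra (ZMod p) G),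
      eAct f act (Pi.single j u) i = ∑ g, ((f i j).coeff g).val • act g u := fun f => by
    rw [eAct_apply, Finset.sum_eq_single j]
    · rw [Pi.single_eq_same]
    · intro l _ hl
      simp [Pi.single_eq_of_ne hl]
    · simp
  have h' := congrFun (h (Pi.single j u)) i
  rw [← eAct_mul, key, key] at h'
  calc ∑ g, (((e * e) i j).coeff g - (e i j).coeff g).val • act g u
      = ∑ g, ((((e * e) i j).coeff g).val • act g u - ((e i j).coeff g).val • act g u) := by
        refine Finset.sum_congr rfl fun g _ => ?_
        simp only [← Nat.cast_smul_eq_nsmul (ZMod p), ZMod.natCast_zmod_val, sub_smul]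
    _ = 0 := by rw [Finset.sum_sub_distrib, h', sub_self]

end Free

section Euler

variable {U V : Type*} [AddCommGroup U] [AddCommGroup V]
  {e : Matrix (Fin n) (Fin n) (MonoidAlgebra (ZMod p) G)}
  {actU : G →* AddMonoid.End U} {actV : G →* AddMonoid.End V}

omit [Fact (Nat.Prime p)] in
theorem psi_of_subsingleton [Subsingleton U] : psi e actU = 1 :=
  Nat.card_eq_one_iff_unique.2 ⟨inferInstance, inferInstance⟩

omit [Fact (Nat.Prime p)] in
/-- Finite groups satisfy `PFin`. -/
theorem pFin_of_finite [Finite U] : PFin p U := ⟨inferInstance, inferInstance⟩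

/-- The action on an invariant subgroup. -/
def actSub (act : G →* AddMonoid.End U) (S : AddSubgroup U) (h : ∀ g, ∀ x ∈ S, act g x ∈ S) :
    G →* AddMonoid.End S where
  toFun g := ((act g : U →+ U).comp S.subtype).codRestrict _ fun x => h g _ x.2
  map_one' := by
    refine AddMonoidHom.ext fun x => Subtype.ext ?_
    show act 1 (x : U) = x
    rw [map_one]; rfl
  map_mul' g g' := by
    refine AddMonoidHom.ext fun x => Subtype.ext ?_
    show act (g * g') (x : U) = act g (act g' x)
    rw [map_mul]; rfl

omit [Fintype G] in
@[simp] theorem actSub_apply (act : G →* AddMonoid.End U) (S : AddSubgroup U)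
    (h : ∀ g, ∀ x ∈ S, act g x ∈ S) (g : G) (x : S) :
    ((actSub act S h g x : S) : U) = act g x := rfl

end Euler

/-- The weighted Euler index of a finite group is `1`. -/
theorem psiEuler_of_finite {e : Matrix (Fin n) (Fin n) (MonoidAlgebra (ZMod p) G)}
    (he : e * e = e) :
    ∀ {U : Type} [AddCommGroup U] [Finite U] (act : G →* AddMonoid.End U), psiEuler e act = 1 := by
  intro U _ _ act
  induction hN : Nat.card U using Nat.strong_induction_on generalizing U with
  | _ N ih =>
    subst hN
    by_cases htop : (nsmulAddMonoidHom (α := U) p).range = ⊤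
    · have hs : Function.Surjective (nsmulAddMonoidHom (α := U) p) :=
        AddMonoidHom.range_eq_top.1 htop
      have hi : Function.Injective (nsmulAddMonoidHom (α := U) p) :=
        Finite.injective_iff_surjective.2 hs
      have : Subsingleton (pTors p U) :=
        ⟨fun x y => Subtype.ext (hi (x.2.trans y.2.symm))⟩
      have : Subsingleton (pQuot p U) := ⟨fun x y => by
        induction x using QuotientAddGroup.induction_on with
        | H x =>
          induction y using QuotientAddGroup.induction_on with
          | H y => exact QuotientAddGroup.eq.2 (htop ▸ AddSubgroup.mem_top _)⟩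
      rw [psiEuler, psi_of_subsingleton, psi_of_subsingleton, Nat.cast_one, div_one]
    by_cases hbot : (nsmulAddMonoidHom (α := U) p).range = ⊥
    · have hk : ∀ x : U, p • x = 0 := fun x => by
        have hx : p • x ∈ (nsmulAddMonoidHom (α := U) p).range := ⟨x, rfl⟩
        rwa [hbot] at hx
      let f : pTors p U →+ pQuot p U := (QuotientAddGroup.mk' _).comp (pTors p U).subtype
      have hf : Function.Bijective f := by
        refine ⟨fun x y h => Subtype.ext ?_, fun x => ?_⟩
        · have h' := (QuotientAddGroup.eq_iff_sub_mem).1 h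
          rw [hbot] at h'
          exact sub_eq_zero.1 h'
        · induction x using QuotientAddGroup.induction_on with
          | H x => exact ⟨⟨x, hk x⟩, rfl⟩
      have := psi_congr (e := e) (AddEquiv.ofBijective f hf) (actU := actTors p act)
        (actV := actQuot p act) fun _ _ => rfl
      rw [psiEuler, ← this, div_self]
      exact Nat.cast_ne_zero.2 psi_pos.ne'
    have hR : ∀ g, ∀ x ∈ (nsmulAddMonoidHom (α := U) p).range,
        act g x ∈ (nsmulAddMonoidHom (α := U) p).range := by
      rintro g _ ⟨x, rfl⟩
      exact ⟨act g x, (map_nsmul (act g) p x).symm⟩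
    have h1 : psiEuler e act = psiEuler e (actSub act _ hR) * psiEuler e (actQuot p act) :=
      psiEuler_of_exact he (i := (nsmulAddMonoidHom (α := U) p).range.subtype)
        (π := QuotientAddGroup.mk' _) Subtype.val_injective (QuotientAddGroup.mk'_surjective _)
        (fun x => ⟨fun hx => ⟨⟨x, (QuotientAddGroup.eq_zero_iff x).1 hx⟩, rfl⟩, by
          rintro ⟨y, rfl⟩; exact (QuotientAddGroup.eq_zero_iff _).2 y.2⟩)
        (fun _ _ => rfl) (fun _ _ => rfl) pFin_of_finite pFin_of_finite pFin_of_finite
    rw [h1, ih _ ?_ _ rfl, ih _ ?_ _ rfl, one_mul]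
    · refine lt_of_le_of_ne (Nat.card_le_card_of_surjective _ (QuotientAddGroup.mk'_surjective _))
        fun h => hbot ?_
      have hi := (Nat.bijective_iff_surjective_and_card _).2
        ⟨QuotientAddGroup.mk'_surjective (nsmulAddMonoidHom (α := U) p).range, h.symm⟩
      rw [← QuotientAddGroup.ker_mk' (nsmulAddMonoidHom (α := U) p).range,
        AddMonoidHom.ker_eq_bot_iff]
      exact hi.1
    · refine lt_of_le_of_ne (Nat.card_le_card_of_injective _ Subtype.val_injective) fun h => htop ?_
      exact AddSubgroup.eq_top_of_card_eq _ h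

section Perm

variable {ι : Type*}

/-- Permutations acting on functions. -/
def permFun (σ : G →* Equiv.Perm ι) (M : Type*) [AddCommGroup M] :
    G →* AddMonoid.End (ι → M) where
  toFun g :=
    { toFun := fun φ x => φ ((σ g).symm x)
      map_zero' := rfl
      map_add' := fun _ _ => rfl }
  map_one' := by
    refine AddMonoidHom.ext fun φ => funext fun x => ?_
    show φ ((σ 1).symm x) = φ x
    rw [map_one σ]; rfl
  map_mul' g h := by
    refine AddMonoidHom.ext fun φ => funext fun x => ?_
    show φ ((σ (g * h)).symm x) = φ ((σ h).symm ((σ g).symm x))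
    rw [map_mul σ]; rfl

variable [Finite ι] {e : Matrix (Fin n) (Fin n) (MonoidAlgebra (ZMod p) G)}
  (σ : G →* Equiv.Perm ι)

omit [Finite ι] in
theorem subsingleton_pTors_lattice : Subsingleton (pTors p (ι → ℤ)) :=
  ⟨fun x y => Subtype.ext (funext fun i => by
    have hp : p ≠ 0 := (Fact.out : p.Prime).ne_zero
    have hx := congrFun (x.2 : p • (x : ι → ℤ) = 0) i
    have hy := congrFun (y.2 : p • (y : ι → ℤ) = 0) i
    exact (smul_right_injective ℤ hp) (hx.trans hy.symm))⟩

/-- Reduction of a lattice modulo `p`. -/
noncomputable def latticeRed (p : ℕ) (ι : Type*) : pQuot p (ι → ℤ) →+ (ι → ZMod p) :=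
  QuotientAddGroup.lift _ ((Int.castAddHom (ZMod p)).compLeft ι) (by
    rintro _ ⟨x, rfl⟩
    funext i
    simp)

omit [Finite ι] in
theorem latticeRed_bijective : Function.Bijective (latticeRed p ι) := by
  refine ⟨fun a b h => ?_, fun v => ⟨QuotientAddGroup.mk fun i => ((v i).val : ℤ), ?_⟩⟩
  · induction a using QuotientAddGroup.induction_on with
    | H a =>
      induction b using QuotientAddGroup.induction_on with
      | H b =>
        refine (QuotientAddGroup.eq_iff_sub_mem).2
          ⟨fun i => (a i - b i) / p, funext fun i => ?_⟩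
        have hi : ((a i : ℤ) : ZMod p) = (b i : ZMod p) := congrFun h i
        have hd : (p : ℤ) ∣ a i - b i := (ZMod.intCast_eq_intCast_iff_dvd_sub _ _ _).1 hi.symm
        show p • ((a i - b i) / (p : ℤ)) = a i - b i
        rw [nsmul_eq_mul, Int.mul_ediv_cancel' hd]
  · funext i
    show (((v i).val : ℤ) : ZMod p) = v i
    simp

/-- Lattices satisfy `PFin`. -/
theorem pFin_lattice : PFin p (ι → ℤ) := by
  have := subsingleton_pTors_lattice (p := p) (ι := ι)
  exact ⟨Finite.of_injective _ latticeRed_bijective.1, inferInstance⟩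

omit [Finite ι] in
/-- The weighted Euler index of a permutation lattice. -/
theorem psiEuler_lattice :
    psiEuler e (permFun σ ℤ) = (psi e (permFun σ (ZMod p)) : ℚ) := by
  have := subsingleton_pTors_lattice (p := p) (ι := ι)
  rw [psiEuler, psi_of_subsingleton (actU := actTors p (permFun σ ℤ)), Nat.cast_one, div_one,
    psi_congr (e := e) (AddEquiv.ofBijective _ latticeRed_bijective)
      (actU := actQuot p (permFun σ ℤ)) (actV := permFun σ (ZMod p)) fun g u => by
        induction u using QuotientAddGroup.induction_on with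
        | H u => rfl]

end Perm

end Fermat.Agent.TWEuler
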