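import Mathlib.Algebra.MonoidAlgebra.Basic
import Mathlib.RepresentationTheory.Basic
import Mathlib.GroupTheory.QuotientGroup.Basic
import Mathlib.Algebra.Module.ZMod
import Mathlib.Data.ZMod.Basic
import Mathlib.LinearAlgebra.Matrix.ToLin

/-!
# Weighted Euler indices

Weighted Euler indices: the functor cut out by an idempotent matrix over `𝔽_p[A]` applied to the
cokernel and the kernel of multiplication by `p`.
-/

set_option autoImplicit false


namespace Fermat.Agent.TWEuler

variable {p : ℕ} [Fact p.Prime] {G : Type*} [Group G] [Fintype G] {n : ℕ}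

section Action

variable {U V W : Type*} [AddCommGroup U] [AddCommGroup V] [AddCommGroup W]

/-- The endomorphism of `U^n` given by a matrix over `𝔽_p[G]`, with coefficients lifted to
`{0, …, p-1}`. -/
noncomputable def eAct (e : Matrix (Fin n) (Fin n) (MonoidAlgebra (ZMod p) G))
    (act : G →* AddMonoid.End U) : (Fin n → U) →+ (Fin n → U) where
  toFun v i := ∑ j, ∑ g, ((e i j).coeff g).val • act g (v j)
  map_zero' := by funext i; simp
  map_add' v w := by
    funext i
    simp only [Pi.add_apply, map_add, smul_add, Finset.sum_add_distrib]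

omit [Fact (Nat.Prime p)] in
/-- The entries of `eAct`. -/
theorem eAct_apply (e : Matrix (Fin n) (Fin n) (MonoidAlgebra (ZMod p) G))
    (act : G →* AddMonoid.End U) (v : Fin n → U) (i : Fin n) :
    eAct e act v i = ∑ j, ∑ g, ((e i j).coeff g).val • act g (v j) := rfl

omit [Fact (Nat.Prime p)] in
theorem eAct_natural (e : Matrix (Fin n) (Fin n) (MonoidAlgebra (ZMod p) G))
    {actU : G →* AddMonoid.End U} {actV : G →* AddMonoid.End V} (f : U →+ V)
    (hf : ∀ g u, f (actU g u) = actV g (f u)) (v : Fin n → U) :
    (fun i => f (eAct e actU v i)) = eAct e actV (fun i => f (v i)) := by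
  funext i
  simp only [eAct_apply, map_sum, map_nsmul, hf]

/-- `eAct` is multiplicative in the matrix. -/
theorem eAct_mul [Module (ZMod p) U]
    (e e' : Matrix (Fin n) (Fin n) (MonoidAlgebra (ZMod p) G))
    {act : G →* AddMonoid.End U} (v : Fin n → U) :
    eAct (e * e') act v = eAct e act (eAct e' act v) := by
  let ρ : Representation (ZMod p) G U :=
    { toFun := fun g => AddMonoidHom.toZModLinearMap p (act g : U →+ U)
      map_one' := by
        refine LinearMap.ext fun u => ?_
        show act 1 u = u
        rw [map_one]; rfl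
      map_mul' := fun g h => by
        refine LinearMap.ext fun u => ?_
        show act (g * h) u = act g (act h u)
        rw [map_mul]; rfl }
  have key : ∀ (a : MonoidAlgebra (ZMod p) G) (u : U),
      ρ.asAlgebraHom a u = ∑ g, (a.coeff g).val • act g u := by
    intro a u
    rw [Representation.asAlgebraHom_def, MonoidAlgebra.lift_apply, Finsupp.sum_fintype,
      LinearMap.sum_apply]
    swap
    · exact fun g => zero_smul (ZMod p) (ρ g)
    refine Finset.sum_congr rfl fun g _ => ?_
    rw [LinearMap.smul_apply, ← Nat.cast_smul_eq_nsmul (ZMod p), ZMod.natCast_zmod_val]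
    rfl
  have hmat : ∀ (f : Matrix (Fin n) (Fin n) (MonoidAlgebra (ZMod p) G)) w,
      eAct f act w = fun i => ∑ j, ρ.asAlgebraHom (f i j) (w j) := fun f w => by
    funext i
    simp only [key, eAct_apply]
  rw [hmat (e * e') v, hmat e (eAct e' act v), hmat e' v]
  funext i
  simp only [map_sum, ← Module.End.mul_apply, ← map_mul]
  rw [Finset.sum_comm]
  refine Finset.sum_congr rfl fun l _ => ?_
  rw [← LinearMap.sum_apply, ← map_sum, Matrix.mul_apply]

theorem eAct_eAct_of_module [Module (ZMod p) U]
    {e : Matrix (Fin n) (Fin n) (MonoidAlgebra (ZMod p) G)} (he : e * e = e)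
    {act : G →* AddMonoid.End U} (v : Fin n → U) :
    eAct e act (eAct e act v) = eAct e act v := by
  rw [← eAct_mul, he]

theorem eAct_eAct {e : Matrix (Fin n) (Fin n) (MonoidAlgebra (ZMod p) G)} (he : e * e = e)
    {act : G →* AddMonoid.End U} (hU : ∀ u : U, p • u = 0) (v : Fin n → U) :
    eAct e act (eAct e act v) = eAct e act v :=
  haveI := AddCommGroup.zmodModule hU
  eAct_eAct_of_module he v

end Action

/-- The weight of a group killed by `p`: the cardinality of the image of the idempotent. -/
noncomputable def psi (e : Matrix (Fin n) (Fin n) (MonoidAlgebra (ZMod p) G)) {U : Type*}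
    [AddCommGroup U] (act : G →* AddMonoid.End U) : ℕ :=
  Nat.card (eAct e act).range

section Exact

variable {U V W : Type*} [AddCommGroup U] [AddCommGroup V] [AddCommGroup W]
  {e : Matrix (Fin n) (Fin n) (MonoidAlgebra (ZMod p) G)}
  {actU : G →* AddMonoid.End U} {actV : G →* AddMonoid.End V} {actW : G →* AddMonoid.End W}

omit [Fact (Nat.Prime p)] in
/-- Weights of finite modules are positive. -/
theorem psi_pos [Finite U] : 0 < psi e actU := Nat.card_pos

/-- The map induced on weights. -/
noncomputable def psiMap (f : U →+ V) (hf : ∀ g u, f (actU g u) = actV g (f u)) :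
    (eAct e actU).range →+ (eAct e actV).range :=
  ((f.compLeft (Fin n)).comp (eAct e actU).range.subtype).codRestrict _ (by
    rintro ⟨x, v, rfl⟩
    exact ⟨fun i => f (v i), (eAct_natural e f hf v).symm⟩)

omit [Fact (Nat.Prime p)] in
@[simp] theorem psiMap_coe (f : U →+ V) (hf : ∀ g u, f (actU g u) = actV g (f u))
    (x : (eAct e actU).range) (i : Fin n) : (psiMap f hf x : Fin n → V) i = f ((x : Fin n → U) i) :=
  rfl

/-- For idempotent `e`, `psiMap` preserves exactness. -/
theorem psiMap_exact (he : e * e = e) (hV : ∀ v : V, p • v = 0) {f : U →+ V} {g : V →+ W}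
    (hf : ∀ a u, f (actU a u) = actV a (f u)) (hg : ∀ a v, g (actV a v) = actW a (g v))
    (hex : Function.Exact f g) : Function.Exact (psiMap (e := e) f hf) (psiMap g hg) := by
  intro x
  constructor
  · intro hx
    choose u hu using fun i => (hex ((x : Fin n → V) i)).1 (congrFun (congrArg Subtype.val hx) i)
    refine ⟨⟨eAct e actU u, u, rfl⟩, Subtype.ext ?_⟩
    obtain ⟨v, hv⟩ := x.2
    have h := eAct_natural e f hf u
    rw [show (fun i => f (u i)) = (x : Fin n → V) from funext hu] at h
    show (fun i => f (eAct e actU u i)) = (x : Fin n → V)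
    rw [h, ← hv, eAct_eAct he hV]
  · rintro ⟨y, rfl⟩
    refine Subtype.ext (funext fun i => ?_)
    exact (hex _).2 ⟨_, rfl⟩

omit [Fact (Nat.Prime p)] in
/-- `psiMap` preserves injectivity. -/
theorem psiMap_injective {f : U →+ V} (hf : ∀ a u, f (actU a u) = actV a (f u))
    (hinj : Function.Injective f) : Function.Injective (psiMap (e := e) f hf) := fun _x _y h =>
  Subtype.ext (funext fun i => hinj (congrFun (congrArg Subtype.val h) i))

omit [Fact (Nat.Prime p)] in
/-- `psiMap` preserves surjectivity. -/
theorem psiMap_surjective {f : U →+ V} (hf : ∀ a u, f (actU a u) = actV a (f u))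
    (hs : Function.Surjective f) : Function.Surjective (psiMap (e := e) f hf) := by
  rintro ⟨x, v, rfl⟩
  choose u hu using fun i => hs (v i)
  refine ⟨⟨eAct e actU u, u, rfl⟩, Subtype.ext ?_⟩
  show (fun i => f (eAct e actU u i)) = eAct e actV v
  rw [eAct_natural e f hf u]
  exact congrArg _ (funext hu)

omit [Fact (Nat.Prime p)] in
/-- Isomorphic modules have equal weights. -/
theorem psi_congr (φ : U ≃+ V) (hφ : ∀ a u, φ (actU a u) = actV a (φ u)) :
    psi e actU = psi e actV :=
  Nat.card_congr (Equiv.ofBijective (psiMap (φ : U →+ V) hφ)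
    ⟨psiMap_injective hφ φ.injective, psiMap_surjective hφ φ.surjective⟩)

end Exact

/-- `|B| = |im f| · |im g|` for an exact pair. -/
theorem card_eq_of_exact {A B C : Type*} [AddCommGroup A] [AddCommGroup B] [AddCommGroup C]
    {f : A →+ B} {g : B →+ C} (h : Function.Exact f g) :
    Nat.card B = Nat.card f.range * Nat.card g.range := by
  rw [AddSubgroup.card_eq_card_quotient_mul_card_addSubgroup g.ker,
    Nat.card_congr (QuotientAddGroup.quotientKerEquivRange g).toEquiv, mul_comm]
  rw [show g.ker = f.range from AddSubgroup.ext fun x => h x]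

section Six

variable {U : Type*} [AddCommGroup U]

/-- Kernel of multiplication by `p`. -/
abbrev pTors (p : ℕ) (U : Type*) [AddCommGroup U] : AddSubgroup U :=
  (nsmulAddMonoidHom (α := U) p).ker

/-- Cokernel of multiplication by `p`. -/
abbrev pQuot (p : ℕ) (U : Type*) [AddCommGroup U] : Type _ :=
  U ⧸ (nsmulAddMonoidHom (α := U) p).range

omit [Fact (Nat.Prime p)] in
/-- Membership in the `p`-torsion. -/
theorem mem_pTors {x : U} : x ∈ pTors p U ↔ p • x = 0 := Iff.rfl

omit [Fact (Nat.Prime p)] in
theorem pTors_killed (x : pTors p U) : p • x = 0 := Subtype.ext x.2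

omit [Fact (Nat.Prime p)] in
theorem pQuot_killed (x : pQuot p U) : p • x = 0 := by
  induction x using QuotientAddGroup.induction_on with
  | H x => exact (QuotientAddGroup.eq_zero_iff _).2 ⟨x, rfl⟩

/-- The action on the `p`-torsion. -/
def actTors (p : ℕ) (act : G →* AddMonoid.End U) : G →* AddMonoid.End (pTors p U) where
  toFun g := ((act g).comp (pTors p U).subtype).codRestrict _ fun x => by
    show p • act g x = 0
    rw [← map_nsmul, show p • (x : U) = 0 from x.2, map_zero]
  map_one' := by
    refine AddMonoidHom.ext fun x => Subtype.ext ?_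
    show act 1 (x : U) = x
    rw [map_one]; rfl
  map_mul' g h := by
    refine AddMonoidHom.ext fun x => Subtype.ext ?_
    show act (g * h) (x : U) = act g (act h x)
    rw [map_mul]; rfl

/-- The action on the cokernel of multiplication by `p`. -/
def actQuot (p : ℕ) (act : G →* AddMonoid.End U) : G →* AddMonoid.End (pQuot p U) where
  toFun g := QuotientAddGroup.map _ _ (act g) (by
    rintro _ ⟨x, rfl⟩
    exact ⟨act g x, (map_nsmul (act g) p x).symm⟩)
  map_one' := by
    refine QuotientAddGroup.addMonoidHom_ext _ (AddMonoidHom.ext fun x => ?_)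
    show QuotientAddGroup.mk (act 1 x) = QuotientAddGroup.mk x
    rw [map_one]; rfl
  map_mul' g h := by
    refine QuotientAddGroup.addMonoidHom_ext _ (AddMonoidHom.ext fun x => ?_)
    show QuotientAddGroup.mk (act (g * h) x) = QuotientAddGroup.mk (act g (act h x))
    rw [map_mul]; rfl

end Six

/-- The weighted Euler index `|Ψ(U/p)| / |Ψ(U[p])|`. -/
noncomputable def psiEuler (e : Matrix (Fin n) (Fin n) (MonoidAlgebra (ZMod p) G)) {U : Type*}
    [AddCommGroup U] (act : G →* AddMonoid.End U) : ℚ :=
  (psi e (actQuot p act) : ℚ) / psi e (actTors p act)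

/-- `U/p` and `U[p]` are finite. -/
def PFin (p : ℕ) (U : Type*) [AddCommGroup U] : Prop :=
  Finite (pQuot p U) ∧ Finite (pTors p U)

section Mult

variable {A B C : Type*} [AddCommGroup A] [AddCommGroup B] [AddCommGroup C]
  {e : Matrix (Fin n) (Fin n) (MonoidAlgebra (ZMod p) G)}
  {actA : G →* AddMonoid.End A} {actB : G →* AddMonoid.End B} {actC : G →* AddMonoid.End C}

/-- The weighted Euler index is multiplicative in short exact sequences. -/
theorem psiEuler_of_exact (he : e * e = e) {i : B →+ A} {π : A →+ C}
    (hi : Function.Injective i) (hπ : Function.Surjective π) (hex : Function.Exact i π)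
    (hie : ∀ g b, i (actB g b) = actA g (i b)) (hπe : ∀ g a, π (actA g a) = actC g (π a))
    (hA : PFin p A) (hB : PFin p B) (hC : PFin p C) :
    psiEuler e actA = psiEuler e actB * psiEuler e actC := by
  have := hA.1; have := hA.2; have := hB.1; have := hB.2; have := hC.1; have := hC.2
  -- the six maps
  let i₀ : pTors p B →+ pTors p A := (i.comp (pTors p B).subtype).codRestrict _ fun x => by
    show p • i x = 0
    rw [← map_nsmul, show p • (x : B) = 0 from x.2, map_zero]
  let π₀ : pTors p A →+ pTors p C := (π.comp (pTors p A).subtype).codRestrict _ fun x => by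
    show p • π x = 0
    rw [← map_nsmul, show p • (x : A) = 0 from x.2, map_zero]
  let i₁ : pQuot p B →+ pQuot p A := QuotientAddGroup.map _ _ i (by
    rintro _ ⟨x, rfl⟩; exact ⟨i x, (map_nsmul i p x).symm⟩)
  let π₁ : pQuot p A →+ pQuot p C := QuotientAddGroup.map _ _ π (by
    rintro _ ⟨x, rfl⟩; exact ⟨π x, (map_nsmul π p x).symm⟩)
  choose lift hlift using hπ
  have hδ : ∀ c : pTors p C, ∃ b, i b = p • lift c := fun c => (hex _).1 (by
    rw [map_nsmul, hlift]; exact c.2)
  choose δf hδf using hδ
  have hδu : ∀ (c : pTors p C) (a : A) (b : B), π a = c → i b = p • a →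
      (QuotientAddGroup.mk (δf c) : pQuot p B) = QuotientAddGroup.mk b := by
    intro c a b ha hb
    obtain ⟨t, ht⟩ := (hex (lift c - a)).1 (by rw [map_sub, hlift, ha, sub_self])
    rw [QuotientAddGroup.eq_iff_sub_mem]
    refine ⟨t, hi ?_⟩
    show i (p • t) = i (δf c - b)
    rw [map_nsmul, ht, smul_sub, map_sub, hδf, hb]
  let δ : pTors p C →+ pQuot p B := AddMonoidHom.mk' (fun c => QuotientAddGroup.mk (δf c))
    fun x y => by
      rw [hδu (x + y) (lift x + lift y) (δf x + δf y) (by rw [map_add, hlift, hlift]; rfl)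
        (by rw [map_add, hδf, hδf, smul_add]), QuotientAddGroup.mk_add]
  have e0 : ∀ g b, i₀ (actTors p actB g b) = actTors p actA g (i₀ b) := fun g b =>
    Subtype.ext (hie g b)
  have e1 : ∀ g a, π₀ (actTors p actA g a) = actTors p actC g (π₀ a) := fun g a =>
    Subtype.ext (hπe g a)
  have e2 : ∀ g c, δ (actTors p actC g c) = actQuot p actB g (δ c) := fun g c =>
    hδu _ (actA g (lift c)) (actB g (δf c)) (by rw [hπe, hlift]; rfl)
      (by rw [hie, hδf, map_nsmul])
  have e3 : ∀ g b, i₁ (actQuot p actB g b) = actQuot p actA g (i₁ b) := fun g b => by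
    induction b using QuotientAddGroup.induction_on with
    | H b => exact congrArg QuotientAddGroup.mk (hie g b)
  have e4 : ∀ g a, π₁ (actQuot p actA g a) = actQuot p actC g (π₁ a) := fun g a => by
    induction a using QuotientAddGroup.induction_on with
    | H a => exact congrArg QuotientAddGroup.mk (hπe g a)
  have x0 : Function.Injective i₀ := fun x y h => Subtype.ext (hi (congrArg Subtype.val h))
  have x1 : Function.Exact i₀ π₀ := fun a => by
    constructor
    · intro h
      obtain ⟨b, hb⟩ := (hex _).1 (congrArg Subtype.val h)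
      exact ⟨⟨b, hi (show i (p • b) = i 0 by
        rw [map_nsmul, hb, map_zero]; exact a.2)⟩, Subtype.ext hb⟩
    · rintro ⟨b, rfl⟩
      exact Subtype.ext ((hex _).2 ⟨_, rfl⟩)
  have x2 : Function.Exact π₀ δ := fun c => by
    constructor
    · intro h
      obtain ⟨t, ht⟩ := (QuotientAddGroup.eq_zero_iff _).1 h
      refine ⟨⟨lift c - i t, ?_⟩, Subtype.ext ?_⟩
      · show p • (lift c - i t) = 0
        rw [smul_sub, ← hδf, ← map_nsmul, sub_eq_zero]
        exact congrArg i ht.symm
      · show π (lift c - i t) = c
        rw [map_sub, hlift, (hex _).2 ⟨t, rfl⟩, sub_zero]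
    · rintro ⟨a, rfl⟩
      show (QuotientAddGroup.mk (δf (π₀ a)) : pQuot p B) = 0
      rw [hδu _ (a : A) 0 rfl (by rw [map_zero]; exact a.2.symm)]
      rfl
  have x3 : Function.Exact δ i₁ := fun b => by
    induction b using QuotientAddGroup.induction_on with
    | H b =>
      constructor
      · intro h
        obtain ⟨t, ht⟩ := (QuotientAddGroup.eq_zero_iff _).1 h
        exact ⟨⟨π t, show p • π t = 0 by
          rw [← map_nsmul]; exact (congrArg π ht).trans ((hex _).2 ⟨b, rfl⟩)⟩,
          hδu _ t b rfl ht.symm⟩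
      · rintro ⟨c, hc⟩
        rw [← hc]
        exact (QuotientAddGroup.eq_zero_iff _).2 ⟨lift c, (hδf c).symm⟩
  have x4 : Function.Exact i₁ π₁ := fun a => by
    induction a using QuotientAddGroup.induction_on with
    | H a =>
      constructor
      · intro h
        obtain ⟨t, ht⟩ := (QuotientAddGroup.eq_zero_iff _).1 h
        obtain ⟨b, hb⟩ := (hex (a - p • lift t)).1 (by
          rw [map_sub, map_nsmul, hlift]; exact sub_eq_zero.2 ht.symm)
        refine ⟨QuotientAddGroup.mk b, (QuotientAddGroup.eq_iff_sub_mem).2 ⟨- lift t, ?_⟩⟩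
        show p • -lift t = i b - a
        rw [hb, smul_neg]
        abel
      · rintro ⟨b, hb⟩
        rw [← hb]
        induction b using QuotientAddGroup.induction_on with
        | H b =>
          exact (QuotientAddGroup.eq_zero_iff _).2 ⟨0, by
            show p • (0 : C) = π (i b); rw [smul_zero, (hex _).2 ⟨b, rfl⟩]⟩
  have x5 : Function.Surjective π₁ := fun c => by
    induction c using QuotientAddGroup.induction_on with
    | H c => exact ⟨QuotientAddGroup.mk (lift c), congrArg QuotientAddGroup.mk (hlift c)⟩
  let P0 := psiMap (e := e) i₀ e0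
  let P1 := psiMap (e := e) π₀ e1
  let P2 := psiMap (e := e) δ e2
  let P3 := psiMap (e := e) i₁ e3
  let P4 := psiMap (e := e) π₁ e4
  have q1 := card_eq_of_exact (psiMap_exact he pTors_killed e0 e1 x1 : Function.Exact P0 P1)
  have q2 := card_eq_of_exact (psiMap_exact he pTors_killed e1 e2 x2 : Function.Exact P1 P2)
  have q3 := card_eq_of_exact (psiMap_exact he pQuot_killed e2 e3 x3 : Function.Exact P2 P3)
  have q4 := card_eq_of_exact (psiMap_exact he pQuot_killed e3 e4 x4 : Function.Exact P3 P4)
  have q0 : Nat.card P0.range = psi e (actTors p actB) :=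
    Nat.card_congr (AddMonoidHom.ofInjective (psiMap_injective e0 x0)).symm.toEquiv
  have q5 : Nat.card P4.range = psi e (actQuot p actC) := by
    rw [AddMonoidHom.range_eq_top.2 (psiMap_surjective e4 x5), AddSubgroup.card_top]
    rfl
  change psi e (actTors p actA) = _ at q1
  change psi e (actTors p actC) = _ at q2
  change psi e (actQuot p actB) = _ at q3
  change psi e (actQuot p actA) = _ at q4
  unfold psiEuler
  rw [← q0, q1, q2, q3, q4, ← q5]
  simp only [P0, P4]
  have h0 : (Nat.card (psiMap (e := e) i₀ e0).range : ℚ) ≠ 0 := Nat.cast_ne_zero.2 Nat.card_pos.ne'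
  have h1 : (Nat.card (psiMap (e := e) π₀ e1).range : ℚ) ≠ 0 := Nat.cast_ne_zero.2 Nat.card_pos.ne'
  have h2 : (Nat.card (psiMap (e := e) δ e2).range : ℚ) ≠ 0 := Nat.cast_ne_zero.2 Nat.card_pos.ne'
  push_cast
  field_simp

end Mult

end Fermat.Agent.TWEuler
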