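import Fermat.Agent.PoitouTate.LongExact
import Fermat.Agent.TWEuler.Psi

/-!
# The global Euler characteristic identity in exact sequences

The global Euler characteristic identity as a property of a module, and its behaviour in short
exact sequences.
-/

set_option autoImplicit false

noncomputable section

namespace Fermat.Agent.TWEuler

open Fermat.Agent.PoitouTate

variable {G : Type*} [Group G] {A B C : Type} [AddCommGroup A] [AddCommGroup B] [AddCommGroup C]

/-- The fixed points of one element. -/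
def fixedBy (ρ : Act G A) (c : G) : AddSubgroup A where
  carrier := {a | ρ c a = a}
  add_mem' := fun {a b} ha hb => by
    show ρ c (a + b) = a + b
    rw [map_add, show ρ c a = a from ha, show ρ c b = b from hb]
  zero_mem' := map_zero _
  neg_mem' := fun {a} ha => by
    show ρ c (-a) = -a
    rw [map_neg, show ρ c a = a from ha]

/-- Membership in the fixed points of `c`. -/
theorem mem_fixedBy {ρ : Act G A} {c : G} {a : A} : a ∈ fixedBy ρ c ↔ ρ c a = a := Iff.rfl

/-- Functoriality of the fixed points. -/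
def fixedMap {ρ : Act G A} {σ : Act G B} (φ : A →+ B) (hφ : IsEquivariant ρ σ φ) (c : G) :
    ↥(fixedBy ρ c) →+ ↥(fixedBy σ c) :=
  (φ.comp (fixedBy ρ c).subtype).codRestrict (fixedBy σ c) fun a => by
    have h := hφ c a.1
    rw [MonoidHom.id_apply, show ρ c a.1 = a.1 from a.2] at h
    exact h.symm

@[simp] theorem fixedMap_coe {ρ : Act G A} {σ : Act G B} (φ : A →+ B) (hφ : IsEquivariant ρ σ φ)
    (c : G) (a : ↥(fixedBy ρ c)) : (fixedMap φ hφ c a : B) = φ a := rfl

/-- What the argument needs from the levels: finiteness and right exactness of `H²`. -/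
structure RightExact (L : Levels G) (p : ℕ) : Prop where
  finite₁ : ∀ (A : Type) [AddCommGroup A] [Finite A] (ρ : Act G A), IsSmooth L ρ →
    (∀ a : A, p • a = 0) → Finite (H1 L ρ)
  finite₂ : ∀ (A : Type) [AddCommGroup A] [Finite A] (ρ : Act G A), IsSmooth L ρ →
    (∀ a : A, p • a = 0) → Finite (H2 L ρ)
  surjective : ∀ (A B : Type) [AddCommGroup A] [Finite A] [AddCommGroup B] [Finite B]
    (ρ : Act G A) (σ : Act G B) (π : A →+ B) (hπ : IsEquivariant ρ σ π), IsSmooth L ρ →
    IsSmooth L σ → (∀ a : A, p • a = 0) → Function.Surjective π →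
      Function.Surjective (H2.coef (L := L) π hπ)

/-- The Euler characteristic identity `|H⁰| |H²| |A| = |H¹| |A^c|`. -/
def EulerHolds (L : Levels G) (c : G) (ρ : Act G A) : Prop :=
  Nat.card ↥(Inv ρ) * Nat.card (H2 L ρ) * Nat.card A = Nat.card (H1 L ρ) * Nat.card ↥(fixedBy ρ c)

theorem card_eq_mul_of_shortExact {P Q R : Type*} [AddCommGroup P] [AddCommGroup Q]
    [AddCommGroup R] {i : P →+ Q} {π : Q →+ R} (hi : Function.Injective i)
    (hπ : Function.Surjective π) (hex : Function.Exact i π) :
    Nat.card Q = Nat.card P * Nat.card R := by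
  rw [card_eq_of_exact hex, Nat.card_congr (AddMonoidHom.ofInjective hi).symm.toEquiv,
    AddMonoidHom.range_eq_top.2 hπ, AddSubgroup.card_top]

section Mult

variable {ρ : Act G A} {σ : Act G B} {τ : Act G C} {ι : A →+ B} {π : B →+ C}
  {L : Levels G} {p : ℕ} {c : G}

theorem fixed_card_mul [Finite B] (h : ShortExact ρ σ τ ι π) (hp : Odd p)
    (hB : ∀ b : B, p • b = 0) (hc : c * c = 1) :
    Nat.card ↥(fixedBy σ c) = Nat.card ↥(fixedBy ρ c) * Nat.card ↥(fixedBy τ c) := by
  refine card_eq_mul_of_shortExact (i := fixedMap ι h.equiv_ι c) (π := fixedMap π h.equiv_π c)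
    (fun a b e => Subtype.ext (h.injective (congrArg Subtype.val e))) ?_ ?_
  · intro x
    obtain ⟨b, hb⟩ := h.surjective x.1
    obtain ⟨m, hm⟩ := hp
    have hπc : π (σ c b) = x.1 := by
      have e := h.equiv_π c b
      rw [MonoidHom.id_apply] at e
      rw [e, hb]
      exact x.2
    have hfix : σ c (b + σ c b) = b + σ c b := by
      rw [map_add, ← act_mul_apply, hc, act_one_apply, add_comm]
    refine ⟨⟨(m + 1) • (b + σ c b), ?_⟩, Subtype.ext ?_⟩
    · show σ c ((m + 1) • (b + σ c b)) = (m + 1) • (b + σ c b)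
      rw [map_nsmul, hfix]
    · show π ((m + 1) • (b + σ c b)) = x.1
      have hx : p • x.1 = 0 := by rw [← hb, ← map_nsmul, hB, map_zero]
      rw [map_nsmul, map_add, hπc, hb, ← two_nsmul, ← mul_nsmul',
        show (m + 1) * 2 = p + 1 by omega, add_nsmul, one_nsmul, hx, zero_add]
  · intro b
    constructor
    · intro hb
      obtain ⟨a, ha⟩ := (h.exact b.1).1 (congrArg Subtype.val hb)
      refine ⟨⟨a, h.injective ?_⟩, Subtype.ext ha⟩
      have e := h.equiv_ι c a
      rw [MonoidHom.id_apply] at e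
      rw [e, ha]
      exact b.2
    · rintro ⟨a, rfl⟩
      exact Subtype.ext (h.π_ι _)

/-- The product identity coming from the long exact sequence. -/
theorem euler_identity [Finite A] [Finite B] [Finite C] (h : ShortExact ρ σ τ ι π)
    (hσ : IsSmooth L σ) (hs : Function.Surjective (H2.coef (L := L) π h.equiv_π)) :
    Nat.card (H1 L ρ) * Nat.card (H1 L τ) * Nat.card ↥(Inv σ) * Nat.card (H2 L σ) =
      Nat.card (H1 L σ) * Nat.card ↥(Inv ρ) * Nat.card ↥(Inv τ) *
        (Nat.card (H2 L ρ) * Nat.card (H2 L τ)) := by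
  rw [card_eq_of_exact (h.exact_δ₀_H1 (L := L) hσ), card_eq_of_exact (h.exact_H1 (L := L) hσ),
    card_eq_of_exact (h.exact_H1_δ₁ (L := L) hσ), card_eq_of_exact (h.exact_δ₁_H2 (L := L) hσ),
    card_eq_of_exact (h.exact_H2 (L := L) hσ), card_eq_of_exact h.exact_inv,
    card_eq_of_exact (h.exact_inv_δ₀ (L := L) hσ), AddMonoidHom.range_eq_top.2 hs,
    AddSubgroup.card_top, Nat.card_congr (AddMonoidHom.ofInjective h.inv_injective).symm.toEquiv]
  ring

theorem euler_products [Finite A] [Finite B] [Finite C] (h : ShortExact ρ σ τ ι π)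
    (hre : RightExact L p) (hp : Odd p) (hB : ∀ b : B, p • b = 0) (hσ : IsSmooth L σ)
    (hτ : IsSmooth L τ) (hc : c * c = 1) :
    (Nat.card ↥(Inv ρ) * Nat.card (H2 L ρ) * Nat.card A) *
        (Nat.card ↥(Inv τ) * Nat.card (H2 L τ) * Nat.card C) *
        (Nat.card (H1 L σ) * Nat.card ↥(fixedBy σ c)) =
      (Nat.card (H1 L ρ) * Nat.card ↥(fixedBy ρ c)) *
        (Nat.card (H1 L τ) * Nat.card ↥(fixedBy τ c)) *
        (Nat.card ↥(Inv σ) * Nat.card (H2 L σ) * Nat.card B) := by
  have h1 := euler_identity (L := L) h hσ (hre.surjective B C σ τ π h.equiv_π hσ hτ hB h.surjective)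
  have h2 := fixed_card_mul h hp hB hc
  have h3 : Nat.card B = Nat.card A * Nat.card C :=
    card_eq_mul_of_shortExact h.injective h.surjective fun b => h.exact b
  rw [h2, h3]
  calc _ = Nat.card A * Nat.card C * Nat.card ↥(fixedBy ρ c) * Nat.card ↥(fixedBy τ c) *
      (Nat.card (H1 L σ) * Nat.card ↥(Inv ρ) * Nat.card ↥(Inv τ) *
        (Nat.card (H2 L ρ) * Nat.card (H2 L τ))) := by ring
    _ = _ := by rw [← h1]; ring

/-- If the identity holds for the outer terms, it holds for the middle one. -/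
theorem EulerHolds.middle [Finite A] [Finite B] [Finite C] (h : ShortExact ρ σ τ ι π)
    (hre : RightExact L p) (hp : Odd p) (hB : ∀ b : B, p • b = 0) (hρ : IsSmooth L ρ)
    (hσ : IsSmooth L σ) (hτ : IsSmooth L τ) (hc : c * c = 1) (hA : EulerHolds L c ρ)
    (hC : EulerHolds L c τ) : EulerHolds L c σ := by
  have hA' : ∀ a : A, p • a = 0 := fun a => h.injective (by rw [map_nsmul, hB, map_zero])
  have hC' : ∀ x : C, p • x = 0 := fun x => by
    obtain ⟨b, rfl⟩ := h.surjective x
    rw [← map_nsmul, hB, map_zero]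
  have := hre.finite₁ A ρ hρ hA'
  have := hre.finite₁ C τ hτ hC'
  have e := euler_products (c := c) h hre hp hB hσ hτ hc
  unfold EulerHolds at hA hC ⊢
  rw [hA, hC] at e
  exact (Nat.eq_of_mul_eq_mul_left (Nat.mul_pos (Nat.mul_pos Nat.card_pos Nat.card_pos)
    (Nat.mul_pos Nat.card_pos Nat.card_pos)) e).symm

/-- If the identity holds for the middle and right terms, it holds for the left one. -/
theorem EulerHolds.left [Finite A] [Finite B] [Finite C] (h : ShortExact ρ σ τ ι π)
    (hre : RightExact L p) (hp : Odd p) (hB : ∀ b : B, p • b = 0)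
    (hσ : IsSmooth L σ) (hτ : IsSmooth L τ) (hc : c * c = 1) (hM : EulerHolds L c σ)
    (hC : EulerHolds L c τ) : EulerHolds L c ρ := by
  have hC' : ∀ x : C, p • x = 0 := fun x => by
    obtain ⟨b, rfl⟩ := h.surjective x
    rw [← map_nsmul, hB, map_zero]
  have := hre.finite₁ B σ hσ hB
  have := hre.finite₁ C τ hτ hC'
  have e := euler_products (c := c) h hre hp hB hσ hτ hc
  unfold EulerHolds at hM hC ⊢
  rw [hM, hC] at e
  exact Nat.eq_of_mul_eq_mul_right (Nat.mul_pos Nat.card_pos Nat.card_pos)
    (Nat.eq_of_mul_eq_mul_right (Nat.mul_pos Nat.card_pos Nat.card_pos) e)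

/-- The identity holds for the zero module. -/
theorem eulerHolds_of_subsingleton [Subsingleton A] (ρ : Act G A) (L : Levels G) (c : G) :
    EulerHolds L c ρ := by
  have : Subsingleton (H1 L ρ) := H1.mk_surjective.subsingleton
  have : Subsingleton (H2 L ρ) := H2.mk_surjective.subsingleton
  simp [EulerHolds]

/-- The identity is invariant under equivariant bijections. -/
theorem EulerHolds.of_bijective [Finite A] [Finite B] {φ : A →+ B} (hφ : IsEquivariant ρ σ φ)
    (hb : Function.Bijective φ) (hre : RightExact L p) (hp : Odd p) (hA' : ∀ a : A, p • a = 0)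
    (hρ : IsSmooth L ρ) (hσ : IsSmooth L σ) (hc : c * c = 1) (hB : EulerHolds L c σ) :
    EulerHolds L c ρ := by
  have h : ShortExact (1 : Act G PUnit) ρ σ (0 : PUnit →+ A) φ :=
    { injective := fun _ _ _ => Subsingleton.elim _ _
      surjective := hb.2
      exact := fun a => ⟨fun e => ⟨PUnit.unit, (hb.1 (e.trans (map_zero φ).symm)).symm⟩, by
        rintro ⟨_, rfl⟩; exact map_zero φ⟩
      equiv_ι := fun g _ => (map_zero (ρ g)).symm
      equiv_π := hφ }
  refine EulerHolds.middle h hre hp hA' ?_ hρ hσ hc (eulerHolds_of_subsingleton _ _ _) hB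
  exact fun a => L.exists_mem.imp fun U hU => ⟨hU, fun _ _ => rfl⟩

end Mult

end Fermat.Agent.TWEuler

end
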