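import Fermat.Agent.PoitouTate.Perm
import Fermat.Agent.TWEuler.Ratio
import Fermat.Agent.TWEuler.PsiBasic
import Mathlib.LinearAlgebra.Dimension.Free
import Mathlib.Algebra.Field.ZMod

/-!
# Coinduced modules as retracts of permutation modules

Coinduced modules as retracts of sums of `Map(X, 𝔽_p(ψ))`, and the transfer of the Euler
characteristic identity to them.
-/

set_option autoImplicit false

noncomputable section

namespace Fermat.Agent.TWEuler

open Fermat.Agent.PoitouTate

section Transfer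

variable {G : Type*} [Group G] {A : Type*} [Group A] {N : Type} [AddCommGroup N]
  {ρN : Act G N} {deck : A →* AddMonoid.End N} {L : Levels G} {c : G}

/-- The deck action on invariants. -/
def actInv (hcomm : ∀ a, IsEquivariant ρN ρN (deck a)) : A →* AddMonoid.End ↥(Inv ρN) where
  toFun a := Inv.map' (deck a) (hcomm a)
  map_one' := AddMonoidHom.ext fun x => Subtype.ext (by
    show deck 1 (x : N) = x
    rw [map_one]; rfl)
  map_mul' a b := AddMonoidHom.ext fun x => Subtype.ext (by
    show deck (a * b) (x : N) = deck a (deck b x)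
    rw [map_mul]; rfl)

/-- The deck action on fixed points. -/
def actFixed (c : G) (hcomm : ∀ a, IsEquivariant ρN ρN (deck a)) :
    A →* AddMonoid.End ↥(fixedBy ρN c) where
  toFun a := fixedMap (deck a) (hcomm a) c
  map_one' := AddMonoidHom.ext fun x => Subtype.ext (by
    show deck 1 (x : N) = x
    rw [map_one]; rfl)
  map_mul' a b := AddMonoidHom.ext fun x => Subtype.ext (by
    show deck (a * b) (x : N) = deck a (deck b x)
    rw [map_mul]; rfl)

/-- The deck action on `H¹`. -/
def actH1 (L : Levels G) (hcomm : ∀ a, IsEquivariant ρN ρN (deck a)) :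
    A →* AddMonoid.End (H1 L ρN) where
  toFun a := H1.coef (deck a) (hcomm a)
  map_one' := AddMonoidHom.ext fun x => by
    obtain ⟨z, rfl⟩ := H1.mk_surjective x
    refine congrArg H1.mk (Subtype.ext (funext fun g => ?_))
    show deck 1 (z.1 g) = z.1 g
    rw [map_one]; rfl
  map_mul' a b := AddMonoidHom.ext fun x => by
    obtain ⟨z, rfl⟩ := H1.mk_surjective x
    refine congrArg H1.mk (Subtype.ext (funext fun g => ?_))
    show deck (a * b) (z.1 g) = deck a (deck b (z.1 g))
    rw [map_mul]; rfl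

/-- The deck action on `H²`. -/
def actH2 (L : Levels G) (hcomm : ∀ a, IsEquivariant ρN ρN (deck a)) :
    A →* AddMonoid.End (H2 L ρN) where
  toFun a := H2.coef (deck a) (hcomm a)
  map_one' := AddMonoidHom.ext fun x => by
    obtain ⟨z, rfl⟩ := H2.mk_surjective x
    refine congrArg H2.mk (Subtype.ext (funext fun g => funext fun h => ?_))
    show deck 1 (z.1 g h) = z.1 g h
    rw [map_one]; rfl
  map_mul' a b := AddMonoidHom.ext fun x => by
    obtain ⟨z, rfl⟩ := H2.mk_surjective x
    refine congrArg H2.mk (Subtype.ext (funext fun g => funext fun h => ?_))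
    show deck (a * b) (z.1 g h) = deck a (deck b (z.1 g h))
    rw [map_mul]; rfl

variable {p : ℕ} [Fact p.Prime] [Fintype A] {n : ℕ}

/-- The identity to be verified on a sum of copies of `N` cut out by `e`. -/
def WeightsHold (L : Levels G) (c : G) (hcomm : ∀ a, IsEquivariant ρN ρN (deck a))
    (e : Matrix (Fin n) (Fin n) (MonoidAlgebra (ZMod p) A)) : Prop :=
  psi e (actInv hcomm) * psi e (actH2 L hcomm) * psi e deck =
    psi e (actH1 L hcomm) * psi e (actFixed c hcomm)

/-- The Euler characteristic identity for a retract. -/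
theorem eulerHolds_of_retract {Z : Type} [AddCommGroup Z] {ρ : Act G Z}
    (hcomm : ∀ a, IsEquivariant ρN ρN (deck a))
    {e : Matrix (Fin n) (Fin n) (MonoidAlgebra (ZMod p) A)}
    (π : Fin n → (Z →+ N)) (s : Fin n → (N →+ Z))
    (hπ : ∀ i, IsEquivariant ρ ρN (π i)) (hs : ∀ j, IsEquivariant ρN ρ (s j))
    (h1 : ∀ z, ∑ j, s j (π j z) = z)
    (h2 : ∀ (v : Fin n → N) (i : Fin n), π i (∑ j, s j (v j)) = eAct e deck v i)
    (hw : WeightsHold L c hcomm e) : EulerHolds L c ρ := by
  have h2' : ∀ (v : Fin n → N) (i : Fin n),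
      ∑ j, π i (s j (v j)) = ∑ j, ∑ a, ((e i j).coeff a).val • deck a (v j) := fun v i => by
    rw [← map_sum, h2, eAct_apply]
  unfold EulerHolds WeightsHold at *
  have k0 : Nat.card Z = psi e deck := psi_retract π s h1 h2
  have kI : Nat.card ↥(Inv ρ) = psi e (actInv hcomm) :=
    psi_retract (fun i => Inv.map' (π i) (hπ i)) (fun j => Inv.map' (s j) (hs j))
      (fun z => Subtype.ext (by
        rw [AddSubgroup.val_finsetSum]
        exact h1 z.1))
      (fun v i => Subtype.ext (by
        rw [eAct_apply, map_sum]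
        simp only [AddSubgroup.val_finsetSum, AddSubgroup.coe_nsmul]
        exact h2' (fun j => (v j).1) i))
  have kF : Nat.card ↥(fixedBy ρ c) = psi e (actFixed c hcomm) :=
    psi_retract (fun i => fixedMap (π i) (hπ i) c) (fun j => fixedMap (s j) (hs j) c)
      (fun z => Subtype.ext (by
        rw [AddSubgroup.val_finsetSum]
        exact h1 z.1))
      (fun v i => Subtype.ext (by
        rw [eAct_apply, map_sum]
        simp only [AddSubgroup.val_finsetSum, AddSubgroup.coe_nsmul]
        exact h2' (fun j => (v j).1) i))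
  have k1 : Nat.card (H1 L ρ) = psi e (actH1 L hcomm) := by
    refine psi_retract (fun i => H1.coef (π i) (hπ i)) (fun j => H1.coef (s j) (hs j))
      (fun x => ?_) (fun v i => ?_)
    · obtain ⟨z, rfl⟩ := H1.mk_surjective x
      simp only [H1.map_mk, ← map_sum]
      refine congrArg H1.mk (Subtype.ext (funext fun g => ?_))
      simp only [AddSubgroup.val_finsetSum, Finset.sum_apply]
      exact h1 (z.1 g)
    · choose z hz using fun j => H1.mk_surjective (v j)
      rw [eAct_apply, map_sum]
      simp only [← hz]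
      show ∑ j, H1.mk ⟨cochainMap₁ (MonoidHom.id G) (π i)
            (cochainMap₁ (MonoidHom.id G) (s j) (z j).1),
            cochainMap₁_mem_z1 _ (Compat.id L) _ (hπ i)
              (cochainMap₁_mem_z1 _ (Compat.id L) _ (hs j) (z j).2)⟩ =
        ∑ j, ∑ a, ((e i j).coeff a).val • H1.mk
          ⟨cochainMap₁ (MonoidHom.id G) (deck a) (z j).1,
            cochainMap₁_mem_z1 _ (Compat.id L) _ (hcomm a) (z j).2⟩
      simp only [← map_nsmul, ← map_sum]
      refine congrArg H1.mk (Subtype.ext (funext fun g => ?_))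
      simp only [AddSubgroup.val_finsetSum, AddSubgroup.coe_nsmul, Finset.sum_apply,
        Pi.smul_apply]
      exact h2' (fun j => (z j).1 g) i
  have k2 : Nat.card (H2 L ρ) = psi e (actH2 L hcomm) := by
    refine psi_retract (fun i => H2.coef (π i) (hπ i)) (fun j => H2.coef (s j) (hs j))
      (fun x => ?_) (fun v i => ?_)
    · obtain ⟨z, rfl⟩ := H2.mk_surjective x
      simp only [H2.map_mk, ← map_sum]
      refine congrArg H2.mk (Subtype.ext (funext fun g => funext fun h => ?_))
      simp only [AddSubgroup.val_finsetSum, Finset.sum_apply]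
      exact h1 (z.1 g h)
    · choose z hz using fun j => H2.mk_surjective (v j)
      rw [eAct_apply, map_sum]
      simp only [← hz]
      show ∑ j, H2.mk ⟨cochainMap₂ (MonoidHom.id G) (π i)
            (cochainMap₂ (MonoidHom.id G) (s j) (z j).1),
            cochainMap₂_mem_z2 _ (Compat.id L) _ (hπ i)
              (cochainMap₂_mem_z2 _ (Compat.id L) _ (hs j) (z j).2)⟩ =
        ∑ j, ∑ a, ((e i j).coeff a).val • H2.mk
          ⟨cochainMap₂ (MonoidHom.id G) (deck a) (z j).1,
            cochainMap₂_mem_z2 _ (Compat.id L) _ (hcomm a) (z j).2⟩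
      simp only [← map_nsmul, ← map_sum]
      refine congrArg H2.mk (Subtype.ext (funext fun g => funext fun h => ?_))
      simp only [AddSubgroup.val_finsetSum, AddSubgroup.coe_nsmul, Finset.sum_apply,
        Pi.smul_apply]
      exact h2' (fun j => (z j).1 g h) i
  rw [k0, kI, kF, k1, k2]
  exact hw

end Transfer

section Coind

variable {G : Type*} [Group G] {A : Type*} [Group A] [Fintype A] {X : Type} [Fintype X]
  {M : Type} [AddCommGroup M] {p : ℕ} [Fact p.Prime]

/-- Functions intertwining deck transformations with an action on the values. -/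
def coind (d : A →* Equiv.Perm X) (μ : A →* AddMonoid.End M) : AddSubgroup (X → M) where
  carrier := {f | ∀ a x, f (d a x) = μ a (f x)}
  add_mem' := fun {f g} hf hg a x => by simp [hf a x, hg a x]
  zero_mem' := fun a x => (map_zero (μ a)).symm
  neg_mem' := fun {f} hf a x => by simp [hf a x]

variable (σ : G →* Equiv.Perm X) (d : A →* Equiv.Perm X) (μ : A →* AddMonoid.End M)
  (hd : ∀ g a x, σ g (d a x) = d a (σ g x))

omit [Fintype A] [Fintype X] in
include hd in
theorem permFun_mem_coind (g : G) (f : X → M) (hf : f ∈ coind d μ) :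
    permFun σ M g f ∈ coind d μ := fun a x => by
  show f ((σ g).symm (d a x)) = μ a (f ((σ g).symm x))
  rw [← hf a]
  refine congrArg f ((σ g).injective ?_)
  rw [Equiv.apply_symm_apply, hd, Equiv.apply_symm_apply]

/-- Translation on the coinduced module. -/
def coindAct : Act G ↥(coind d μ) :=
  actSub (permFun σ M) (coind d μ) (permFun_mem_coind σ d μ hd)

omit [Fintype A] [Fintype X] in
/-- Translation on the coinduced module, evaluated at a point. -/
@[simp] theorem coindAct_apply (g : G) (f : ↥(coind d μ)) (x : X) :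
    (coindAct σ d μ hd g f).1 x = f.1 ((σ g).symm x) := rfl

omit [Fintype A] [Fintype X] in
include hd in
/-- Deck transformations commute with the action on `Map(X, 𝔽_p(ψ))`. -/
theorem permFun_deck_equivariant (ψ : Act G (ZMod p)) (a : A) :
    IsEquivariant (permAct σ ψ) (permAct σ ψ) (permFun d (ZMod p) a) := fun g u => by
  funext x
  show ψ g (u ((σ g).symm ((d a).symm x))) = ψ g (u ((d a).symm ((σ g).symm x)))
  refine congrArg (fun y => ψ g (u y)) ((σ g).injective ?_)
  rw [Equiv.apply_symm_apply]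
  apply (d a).injective
  rw [Equiv.apply_symm_apply, ← hd, Equiv.apply_symm_apply, Equiv.apply_symm_apply]

/-- An action on `𝔽_p` is multiplication by its value at one. -/
theorem act_zmod_apply (ψ : Act G (ZMod p)) (g : G) (t : ZMod p) : ψ g t = t * ψ g 1 := by
  have h := map_nsmul (ψ g) t.val (1 : ZMod p)
  simpa [nsmul_eq_mul] using h

omit [Fintype X] in
/-- A weight exists when stabilisers act trivially. -/
theorem exists_weight (htr : IsTransitive σ) (ψ : Act G (ZMod p))
    (hstab : ∀ g x, σ g x = x → ψ g 1 = 1) :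
    ∃ w : X → ZMod p, (∀ x, w x ≠ 0) ∧ ∀ g x, w (σ g x) = ψ g (w x) := by
  obtain ⟨x₀⟩ := htr.1
  choose t ht using fun x => htr.2 x₀ x
  refine ⟨fun x => ψ (t x) 1, fun x h => one_ne_zero (α := ZMod p) ?_, fun g x => ?_⟩
  · exact (act_inv_apply_self ψ (t x) (1 : ZMod p)).symm.trans
      (by rw [show ψ (t x) 1 = 0 from h, map_zero])
  · have hst : σ ((g * t x)⁻¹ * t (σ g x)) x₀ = x₀ := by
      rw [map_mul, map_inv, Equiv.Perm.mul_apply, ht, map_mul]
      show (σ g * σ (t x))⁻¹ (σ g x) = x₀
      rw [Equiv.Perm.inv_eq_iff_eq, Equiv.Perm.mul_apply, ht]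
    have h := hstab _ _ hst
    calc ψ (t (σ g x)) 1 = ψ ((g * t x) * ((g * t x)⁻¹ * t (σ g x))) 1 := by
          rw [mul_inv_cancel_left]
      _ = ψ g (ψ (t x) 1) := by rw [act_mul_apply, h, act_mul_apply]

variable {L : Levels G} {c : G}

omit [Fintype X] in
/-- Key lemma: a coinduced module with a trace-one endomorphism satisfies the identity as soon as
all weights of `Map(X, 𝔽_p(ψ))` do. -/
theorem eulerHolds_coind (htr : IsTransitive σ) (ψ : Act G (ZMod p))
    (hstab : ∀ g x, σ g x = x → ψ g 1 = 1) (hfree : ∀ a x, d a x = x → a = 1)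
    [Module (ZMod p) M] [Finite M] (θ : M →+ M)
    (hθ : ∀ m, ∑ a, μ a⁻¹ (θ (μ a m)) = m)
    (hN : ∀ (n : ℕ) (e : Matrix (Fin n) (Fin n) (MonoidAlgebra (ZMod p) A)), e * e = e →
      WeightsHold L c (permFun_deck_equivariant σ d hd ψ) e) :
    EulerHolds L c (coindAct σ d μ hd) := by
  classical
  have hinv : ∀ a b : ZMod p, (a * b)⁻¹ = a⁻¹ * b⁻¹ := fun a b => mul_inv a b
  have hcan : ∀ a : ZMod p, a ≠ 0 → a⁻¹ * a = 1 := fun a ha => inv_mul_cancel₀ ha
  have hcan' : ∀ a : ZMod p, a ≠ 0 → a * a⁻¹ = 1 := fun a ha => mul_inv_cancel₀ ha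
  have : Module.Free (ZMod p) M := Module.Free.of_divisionRing _ _
  obtain ⟨w, hw0, hw⟩ := exists_weight σ htr ψ hstab
  obtain ⟨x₀⟩ := htr.1
  let b := Module.finBasis (ZMod p) M
  let θl : M →ₗ[ZMod p] M := θ.toZModLinearMap p
  let μl : A → (M →ₗ[ZMod p] M) := fun a => (μ a : M →+ M).toZModLinearMap p
  -- the ratio of weights is constant
  let κ : A → ZMod p := fun a => w x₀ * (w (d a x₀))⁻¹
  have hκ : ∀ a x, w x * (w (d a x))⁻¹ = κ a := fun a x => by
    obtain ⟨g, rfl⟩ := htr.2 x₀ x
    have hg : ψ g 1 ≠ 0 := fun h => one_ne_zero (α := ZMod p)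
      ((act_inv_apply_self ψ g (1 : ZMod p)).symm.trans (by rw [h, map_zero]))
    rw [← hd, hw, hw, act_zmod_apply ψ g (w x₀), act_zmod_apply ψ g (w (d a x₀)), hinv]
    calc w x₀ * ψ g 1 * ((w (d a x₀))⁻¹ * (ψ g 1)⁻¹)
        = κ a * (ψ g 1 * (ψ g 1)⁻¹) := by ring
      _ = κ a := by rw [hcan' _ hg, mul_one]
  let π : Fin (Module.finrank (ZMod p) M) → (↥(coind d μ) →+ (X → ZMod p)) := fun i =>
    AddMonoidHom.mk' (fun f x => w x * b.coord i (θl (f.1 x))) fun f g => funext fun x => by
      simp [mul_add]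
  let s : Fin (Module.finrank (ZMod p) M) → ((X → ZMod p) →+ ↥(coind d μ)) := fun j =>
    AddMonoidHom.mk' (fun u => ⟨fun x => ∑ a, ((w (d a x))⁻¹ * u (d a x)) • μl a⁻¹ (b j),
      fun a₀ x => by
        show _ = μl a₀ _
        rw [map_sum]
        refine Fintype.sum_equiv (Equiv.mulRight a₀) _ _ fun a => ?_
        rw [map_smul, Equiv.coe_mulRight, map_mul d, Equiv.Perm.mul_apply]
        congr 1
        show μ a⁻¹ (b j) = μ a₀ (μ (a * a₀)⁻¹ (b j))
        show μ a⁻¹ (b j) = (μ a₀ * μ (a * a₀)⁻¹) (b j)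
        rw [← map_mul, mul_inv_rev, mul_inv_cancel_left]⟩)
      fun u v => Subtype.ext (funext fun x => by
        simp [mul_add, add_smul, Finset.sum_add_distrib])
  let e := ofCoef fun i j a => κ a⁻¹ * b.coord i (θl (μl a (b j)))
  have h1 : ∀ f, ∑ j, s j (π j f) = f := fun f => Subtype.ext (funext fun x => by
    rw [AddSubgroup.val_finsetSum, Finset.sum_apply]
    show ∑ j, ∑ a, ((w (d a x))⁻¹ * (w (d a x) * b.coord j (θl (f.1 (d a x))))) • μl a⁻¹ (b j) = _
    rw [Finset.sum_comm]
    simp_rw [← mul_assoc, hcan _ (hw0 _), one_mul, ← map_smul, ← map_sum,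
      Module.Basis.coord_apply, b.sum_repr]
    calc ∑ a, μl a⁻¹ (θl (f.1 (d a x))) = ∑ a, μ a⁻¹ (θ (μ a (f.1 x))) :=
          Finset.sum_congr rfl fun a _ => by rw [f.2 a x]; rfl
      _ = f.1 x := hθ _)
  have h2 : ∀ (v : Fin (Module.finrank (ZMod p) M) → X → ZMod p) i,
      π i (∑ j, s j (v j)) = eAct e (permFun d (ZMod p)) v i := fun v i => by
    funext x
    show w x * b.coord i (θl ((∑ j, s j (v j)).1 x)) = _
    rw [eAct_ofCoef_apply, AddSubgroup.val_finsetSum, Finset.sum_apply]
    simp only [Finset.sum_apply, Pi.smul_apply, map_sum, Finset.mul_sum]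
    show ∑ j, _ = _
    refine Finset.sum_congr rfl fun j _ => ?_
    show w x * b.coord i (θl (∑ a, ((w (d a x))⁻¹ * v j (d a x)) • μl a⁻¹ (b j))) = _
    rw [map_sum, map_sum, Finset.mul_sum]
    refine Fintype.sum_equiv (Equiv.inv A) _ _ fun a => ?_
    rw [map_smul, map_smul, nsmul_eq_mul, ZMod.natCast_zmod_val, Equiv.inv_apply, inv_inv,
      smul_eq_mul]
    show _ = κ a * b.coord i (θl (μl a⁻¹ (b j))) * v j ((d a⁻¹).symm x)
    rw [← hκ a x, map_inv, Equiv.Perm.inv_def, Equiv.symm_symm]
    ring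
  have he : e * e = e := by
    refine mul_self_of_faithful (act := permFun d (ZMod p)) (fun a ha => funext fun g => ?_)
      fun v => funext fun i => ?_
    · have h := congrFun (ha (Pi.single x₀ 1)) (d g x₀)
      rw [Finset.sum_apply, Finset.sum_eq_single g] at h
      · rw [Pi.smul_apply] at h
        change (a g).val • (Pi.single x₀ (1 : ZMod p) : X → ZMod p) ((d g).symm (d g x₀)) = 0 at h
        simpa using h
      · intro g' _ hg'
        have hne : (d g').symm (d g x₀) ≠ x₀ := fun h' => hg' (inv_mul_eq_one.1 (hfree (g'⁻¹ * g) x₀ (by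
          rw [map_mul, map_inv, Equiv.Perm.inv_def, Equiv.Perm.mul_apply]; exact h')))
        rw [Pi.smul_apply]
        show (a g').val • (Pi.single x₀ (1 : ZMod p) : X → ZMod p) ((d g').symm (d g x₀)) = 0
        rw [Pi.single_eq_of_ne hne, smul_zero]
      · simp
    · have hv : ∀ v, (fun j => π j (∑ l, s l (v l))) = eAct e (permFun d (ZMod p)) v :=
        fun v => funext (h2 v)
      rw [← h2 (eAct e (permFun d (ZMod p)) v) i, ← hv v, h1]
  refine eulerHolds_of_retract (permFun_deck_equivariant σ d hd ψ) π s (fun i g f => ?_)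
    (fun j g u => ?_) h1 h2 (hN _ e he)
  · funext x
    show w x * b.coord i (θl (f.1 ((σ g).symm x))) = ψ g (w ((σ g).symm x) * _)
    conv_lhs => rw [← (σ g).apply_symm_apply x, hw, act_zmod_apply ψ g]
    rw [act_zmod_apply ψ g (_ * _), Equiv.symm_apply_apply]
    ring
  · refine Subtype.ext (funext fun x => ?_)
    show ∑ a, ((w (d a x))⁻¹ * ψ g (u ((σ g).symm (d a x)))) • μl a⁻¹ (b j) =
      ∑ a, ((w (d a ((σ g).symm x)))⁻¹ * u (d a ((σ g).symm x))) • μl a⁻¹ (b j)
    refine Finset.sum_congr rfl fun a _ => ?_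
    obtain ⟨y, rfl⟩ := (σ g).surjective x
    rw [Equiv.symm_apply_apply, ← hd, Equiv.symm_apply_apply, hw, act_zmod_apply ψ g (w _),
      act_zmod_apply ψ g (u _), hinv]
    congr 1
    have hg : ψ g 1 ≠ 0 := fun h => one_ne_zero (α := ZMod p)
      ((act_inv_apply_self ψ g (1 : ZMod p)).symm.trans (by rw [h, map_zero]))
    calc (w (d a y))⁻¹ * (ψ g 1)⁻¹ * (u (d a y) * ψ g 1)
        = (w (d a y))⁻¹ * u (d a y) * ((ψ g 1)⁻¹ * ψ g 1) := by ring
      _ = _ := by rw [hcan _ hg, mul_one]

end Coind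

end Fermat.Agent.TWEuler

end
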