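import Fermat.Agent.TWEuler.PsiBasic
import Mathlib.Algebra.Exact.Basic

/-!
# Weights in short exact sequences

Weights in short exact sequences, of permutation modules, and of lattices up to finite index.
-/

set_option autoImplicit false

noncomputable section

namespace Fermat.Agent.TWEuler

variable {p : ℕ} [Fact p.Prime] {G : Type*} [Group G] [Fintype G] {n : ℕ}
  {e : Matrix (Fin n) (Fin n) (MonoidAlgebra (ZMod p) G)}

/-- Weights are multiplicative in short exact sequences of groups killed by `p`. -/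
theorem psi_of_shortExact {U V W : Type*} [AddCommGroup U] [AddCommGroup V] [AddCommGroup W]
    {actU : G →* AddMonoid.End U} {actV : G →* AddMonoid.End V} {actW : G →* AddMonoid.End W}
    (he : e * e = e) (hV : ∀ v : V, p • v = 0) {f : U →+ V} {g : V →+ W}
    (hf : ∀ a u, f (actU a u) = actV a (f u)) (hg : ∀ a v, g (actV a v) = actW a (g v))
    (hinj : Function.Injective f) (hsurj : Function.Surjective g) (hex : Function.Exact f g) :
    psi e actV = psi e actU * psi e actW := by
  have h := card_eq_of_exact (psiMap_exact he hV hf hg hex :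
    Function.Exact (psiMap (e := e) f hf) (psiMap g hg))
  rw [Nat.card_congr (AddMonoidHom.ofInjective (psiMap_injective (e := e) hf hinj)).symm.toEquiv,
    AddMonoidHom.range_eq_top.2 (psiMap_surjective (e := e) hg hsurj), AddSubgroup.card_top] at h
  exact h

/-- Weights along `U → V → W → 0` when the kernel of the first map is `p U`. -/
theorem psi_of_pExact {U V W : Type*} [AddCommGroup U] [AddCommGroup V] [AddCommGroup W]
    {actU : G →* AddMonoid.End U} {actV : G →* AddMonoid.End V} {actW : G →* AddMonoid.End W}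
    (he : e * e = e) (hV : ∀ v : V, p • v = 0) (δ : U →+ V) (g : V →+ W)
    (hδ : ∀ a u, δ (actU a u) = actV a (δ u)) (hg : ∀ a v, g (actV a v) = actW a (g v))
    (hker : ∀ u, δ u = 0 ↔ ∃ v, p • v = u) (hsurj : Function.Surjective g)
    (hex : Function.Exact δ g) :
    psi e actV = psi e (actQuot p actU) * psi e actW := by
  let f : pQuot p U →+ V := QuotientAddGroup.lift _ δ fun u hu => (hker u).2 hu
  refine psi_of_shortExact he hV (f := f) (fun a u => ?_) hg ?_ hsurj fun x => ?_
  · induction u using QuotientAddGroup.induction_on with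
    | H u => exact hδ a u
  · rw [injective_iff_map_eq_zero]
    intro u hu
    induction u using QuotientAddGroup.induction_on with
    | H u => exact (QuotientAddGroup.eq_zero_iff _).2 ((hker u).1 hu)
  · refine (hex x).trans ⟨fun ⟨u, hu⟩ => ⟨QuotientAddGroup.mk u, hu⟩, ?_⟩
    rintro ⟨u, rfl⟩
    induction u using QuotientAddGroup.induction_on with
    | H u => exact ⟨u, rfl⟩

omit [Fact (Nat.Prime p)] in
/-- Functions to `𝔽_p` are killed by `p`. -/
theorem pi_zmod_killed {ι : Type*} (v : ι → ZMod p) : p • v = 0 :=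
  funext fun i => ZModModule.char_nsmul_eq_zero p (v i)

omit [Fintype G] in
/-- `permFun` evaluated at a point. -/
@[simp] theorem permFun_apply {ι M : Type*} [AddCommGroup M] (σ : G →* Equiv.Perm ι) (g : G)
    (φ : ι → M) (x : ι) : permFun σ M g φ x = φ ((σ g).symm x) := rfl

/-- Weights of a permutation module of a disjoint union. -/
theorem psi_permFun_sum {α β : Type*} (he : e * e = e) (σ₁ : G →* Equiv.Perm α)
    (σ₂ : G →* Equiv.Perm β) (σ : G →* Equiv.Perm (α ⊕ β))
    (h₁ : ∀ g x, σ g (Sum.inl x) = Sum.inl (σ₁ g x))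
    (h₂ : ∀ g x, σ g (Sum.inr x) = Sum.inr (σ₂ g x)) :
    psi e (permFun σ (ZMod p)) = psi e (permFun σ₁ (ZMod p)) * psi e (permFun σ₂ (ZMod p)) := by
  have e₁ : ∀ g x, (σ g).symm (Sum.inl x) = Sum.inl ((σ₁ g).symm x) := fun g x => by
    rw [Equiv.symm_apply_eq, h₁, Equiv.apply_symm_apply]
  have e₂ : ∀ g x, (σ g).symm (Sum.inr x) = Sum.inr ((σ₂ g).symm x) := fun g x => by
    rw [Equiv.symm_apply_eq, h₂, Equiv.apply_symm_apply]
  let f : (α → ZMod p) →+ (α ⊕ β → ZMod p) :=
    AddMonoidHom.mk' (fun u => Sum.elim u 0) fun u v => funext fun x => by cases x <;> simp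
  let g : (α ⊕ β → ZMod p) →+ (β → ZMod p) :=
    AddMonoidHom.mk' (fun v y => v (Sum.inr y)) fun _ _ => rfl
  refine psi_of_shortExact he pi_zmod_killed (f := f) (g := g) (fun a u => funext fun x => ?_)
    (fun a v => funext fun y => ?_) (fun u v h => funext fun x => congrFun h (Sum.inl x))
    (fun w => ⟨Sum.elim 0 w, funext fun _ => rfl⟩) fun v => ⟨fun h => ?_, ?_⟩
  · cases x <;> simp [f, e₁, e₂]
  · simp [g, e₂]
  · exact ⟨fun x => v (Sum.inl x), funext fun x => by
      cases x
      · rfl
      · exact (congrFun h _).symm⟩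
  · rintro ⟨u, rfl⟩
    rfl

/-- The sum over a finite set as a map to functions on a point. -/
def sumPoint {ι : Type*} [Fintype ι] : (ι → ZMod p) →+ (Unit → ZMod p) :=
  AddMonoidHom.mk' (fun φ _ => ∑ x, φ x) fun φ ψ => funext fun _ => by
    simp [Finset.sum_add_distrib]

omit [Fact (Nat.Prime p)] in
/-- `sumPoint` is the sum of the values. -/
@[simp] theorem sumPoint_apply {ι : Type*} [Fintype ι] (φ : ι → ZMod p) (u : Unit) :
    sumPoint φ u = ∑ x, φ x := rfl

omit [Fact (Nat.Prime p)] [Fintype G] in
theorem sumPoint_permFun {ι : Type*} [Fintype ι] (σ : G →* Equiv.Perm ι) (g : G)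
    (φ : ι → ZMod p) :
    sumPoint (permFun σ (ZMod p) g φ) = permFun (1 : G →* Equiv.Perm Unit) (ZMod p) g (sumPoint φ) :=
  funext fun _ => Equiv.sum_comp (σ g).symm φ

omit [Fact (Nat.Prime p)] [Fintype G] in
/-- Permutations preserve the functions of sum zero. -/
theorem permFun_mem_sumPoint_ker {ι : Type*} [Fintype ι] (σ : G →* Equiv.Perm ι) (g : G) :
    ∀ φ ∈ (sumPoint (p := p) (ι := ι)).ker, permFun σ (ZMod p) g φ ∈ sumPoint.ker := fun φ hφ => by
  show sumPoint _ = 0
  rw [sumPoint_permFun, show sumPoint φ = 0 from hφ, map_zero]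

/-- Functions split into those of sum zero and constants. -/
theorem psi_permFun_sumPoint {ι : Type*} [Fintype ι] [Nonempty ι] (he : e * e = e)
    (σ : G →* Equiv.Perm ι) :
    psi e (permFun σ (ZMod p)) =
      psi e (actSub (permFun σ (ZMod p)) (sumPoint (p := p)).ker (permFun_mem_sumPoint_ker σ)) *
        psi e (permFun (1 : G →* Equiv.Perm Unit) (ZMod p)) := by
  classical
  refine psi_of_shortExact he pi_zmod_killed (f := (sumPoint (p := p) (ι := ι)).ker.subtype)
    (g := sumPoint) (fun _ _ => rfl) (sumPoint_permFun σ) Subtype.val_injective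
    (fun w => ⟨Pi.single (Classical.arbitrary ι) (w ()), funext fun u => by simp [Finset.sum_pi_single']⟩)
    fun v => ⟨fun h => ⟨⟨v, h⟩, rfl⟩, ?_⟩
  rintro ⟨u, rfl⟩
  exact u.2

/-- The action on the quotient by an invariant subgroup. -/
def actMod {U : Type*} [AddCommGroup U] (act : G →* AddMonoid.End U) (S : AddSubgroup U)
    (h : ∀ g, ∀ x ∈ S, act g x ∈ S) : G →* AddMonoid.End (U ⧸ S) where
  toFun g := QuotientAddGroup.map S S (act g) (h g)
  map_one' := by
    refine QuotientAddGroup.addMonoidHom_ext _ (AddMonoidHom.ext fun x => ?_)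
    show QuotientAddGroup.mk (act 1 x) = QuotientAddGroup.mk x
    rw [map_one]; rfl
  map_mul' g g' := by
    refine QuotientAddGroup.addMonoidHom_ext _ (AddMonoidHom.ext fun x => ?_)
    show QuotientAddGroup.mk (act (g * g') x) = QuotientAddGroup.mk (act g (act g' x))
    rw [map_mul]; rfl

omit [Fact (Nat.Prime p)] in
theorem psi_ne_zero {U : Type*} [AddCommGroup U] [Finite U] {act : G →* AddMonoid.End U} :
    (psi e act : ℚ) ≠ 0 := Nat.cast_ne_zero.2 psi_pos.ne'

/-- For a finite group the kernel and cokernel of `p` have the same weight. -/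
theorem psi_quot_eq_psi_tors (he : e * e = e) {U : Type} [AddCommGroup U] [Finite U]
    (act : G →* AddMonoid.End U) : psi e (actQuot p act) = psi e (actTors p act) := by
  have h := psiEuler_of_finite he act
  rw [psiEuler, div_eq_one_iff_eq psi_ne_zero] at h
  exact_mod_cast h

/-- A lattice of functions modulo constants, up to finite index. -/
theorem psi_mul_of_lattice_hom {ι : Type*} [Finite ι] [Nonempty ι] (he : e * e = e)
    (σ : G →* Equiv.Perm ι) {U : Type} [AddCommGroup U] {act : G →* AddMonoid.End U}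
    (φ : (ι → ℤ) →+ U) (hφ : ∀ g f, φ (permFun σ ℤ g f) = act g (φ f))
    (hker : ∀ f, φ f = 0 ↔ ∀ v v', f v = f v') [Finite (U ⧸ φ.range)] (hU : PFin p U)
    (hR : PFin p ↥φ.range) :
    psi e (permFun σ (ZMod p)) * psi e (actTors p act) =
      psi e (permFun (1 : G →* Equiv.Perm Unit) (ZMod p)) * psi e (actQuot p act) := by
  have hinv : ∀ g, ∀ x ∈ φ.range, act g x ∈ φ.range := by
    rintro g _ ⟨f, rfl⟩
    exact ⟨permFun σ ℤ g f, hφ g f⟩
  let i : (Unit → ℤ) →+ (ι → ℤ) := AddMonoidHom.mk' (fun u _ => u ()) fun _ _ => rfl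
  have h1 : psiEuler e (permFun σ ℤ) =
      psiEuler e (permFun (1 : G →* Equiv.Perm Unit) ℤ) * psiEuler e (actSub act φ.range hinv) :=
    psiEuler_of_exact he (i := i) (π := φ.rangeRestrict)
      (fun u v h => funext fun _ => congrFun h (Classical.arbitrary ι))
      φ.rangeRestrict_surjective
      (fun f => by
        refine ⟨fun h => ⟨fun _ => f (Classical.arbitrary ι), funext fun v => ?_⟩, ?_⟩
        · exact (hker f).1 (congrArg Subtype.val h) _ _
        · rintro ⟨u, rfl⟩
          exact Subtype.ext ((hker _).2 fun _ _ => rfl))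
      (fun g u => funext fun v => rfl) (fun g f => Subtype.ext (hφ g f)) pFin_lattice pFin_lattice hR
  have h2 : psiEuler e act = psiEuler e (actSub act φ.range hinv) *
      psiEuler e (actMod act φ.range hinv) :=
    psiEuler_of_exact he (i := φ.range.subtype) (π := QuotientAddGroup.mk' φ.range)
      Subtype.val_injective (QuotientAddGroup.mk'_surjective _)
      (fun x => ⟨fun hx => ⟨⟨x, (QuotientAddGroup.eq_zero_iff x).1 hx⟩, rfl⟩, by
        rintro ⟨y, rfl⟩; exact (QuotientAddGroup.eq_zero_iff _).2 y.2⟩)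
      (fun _ _ => rfl) (fun _ _ => rfl) hU hR pFin_of_finite
  rw [psiEuler_lattice, psiEuler_lattice] at h1
  rw [psiEuler_of_finite he (actMod act φ.range hinv), mul_one, psiEuler] at h2
  rw [← h2] at h1
  have := hU.2
  rw [← mul_div_assoc, eq_div_iff psi_ne_zero] at h1
  exact_mod_cast h1

end Fermat.Agent.TWEuler

end
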