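import Fermat.Agent.DeckUnits.Places
import Fermat.Agent.PoitouTate.Inputs
import Fermat.Agent.TWEuler.Retract
import Fermat.Agent.TWEuler.WeightsExact
import Fermat.Agent.Oddness.Det

/-!
# Weights of the places of a finite Galois set

Deck transformations on places, and the weight of `Map(X, μ_p)` against its part fixed by complex
conjugation.
-/

set_option autoImplicit false

noncomputable section

open ExtCitation

namespace Fermat.Agent.TWEuler

open Fermat.Agent.PoitouTate Fermat.Agent.DeckUnits

variable {X : Type} {σ : GQ →* Equiv.Perm X} {A : Type} [Group A] (d : A →* Equiv.Perm X)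
  (hd : ∀ g a x, σ g (d a x) = d a (σ g x))

include hd in
/-- Deck transformations are equivariant. -/
theorem isEquivMap_deckPerm (a : A) : IsEquivMap σ σ (d a) := fun g x => (hd g a x).symm

include hd in
/-- Deck transformations commute with the action on functions with any values. -/
theorem permFun_equivariant {M : Type*} [AddCommGroup M] (ρ : Act GQ M) (a : A) :
    IsEquivariant (permAct σ ρ) (permAct σ ρ) (permFun d M a) := fun g φ => funext fun x => by
  show ρ g (φ ((σ g).symm ((d a).symm x))) = ρ g (φ ((d a).symm ((σ g).symm x)))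
  refine congrArg (fun y => ρ g (φ y)) ?_
  simp only [perm_symm_apply_eq_inv]
  exact hd g⁻¹ a⁻¹ x

/-- Deck transformations of the places above a finite set of primes. -/
def finPerm (S : Finset Nat.Primes) :
    A →* Equiv.Perm (Σ q : S, Places ((q : Nat.Primes) : ℕ) σ) where
  toFun a :=
    { toFun := Sigma.map id fun q => placeMap ((q : Nat.Primes) : ℕ) (isEquivMap_deckPerm d hd a)
      invFun := Sigma.map id fun q => placeMap ((q : Nat.Primes) : ℕ) (isEquivMap_deckPerm d hd a⁻¹)
      left_inv := fun v => by
        obtain ⟨q, v⟩ := v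
        induction v using Quotient.inductionOn with
        | _ x =>
          show (Sigma.mk q (Quotient.mk _ (d a⁻¹ (d a x))) : Σ q : S, Places ((q : Nat.Primes) : ℕ) σ) = _
          rw [← Equiv.Perm.mul_apply, ← map_mul, inv_mul_cancel, map_one, Equiv.Perm.one_apply]
      right_inv := fun v => by
        obtain ⟨q, v⟩ := v
        induction v using Quotient.inductionOn with
        | _ x =>
          show (Sigma.mk q (Quotient.mk _ (d a (d a⁻¹ x))) : Σ q : S, Places ((q : Nat.Primes) : ℕ) σ) = _
          rw [← Equiv.Perm.mul_apply, ← map_mul, mul_inv_cancel, map_one, Equiv.Perm.one_apply] }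
  map_one' := Equiv.ext fun v => by
    obtain ⟨q, v⟩ := v
    induction v using Quotient.inductionOn with
    | _ x =>
      show (Sigma.mk q (Quotient.mk _ (d 1 x)) : Σ q : S, Places ((q : Nat.Primes) : ℕ) σ) = _
      rw [map_one, Equiv.Perm.one_apply]; rfl
  map_mul' a b := Equiv.ext fun v => by
    obtain ⟨q, v⟩ := v
    induction v using Quotient.inductionOn with
    | _ x =>
      show (Sigma.mk q (Quotient.mk _ (d (a * b) x)) : Σ q : S, Places ((q : Nat.Primes) : ℕ) σ) =
        Sigma.mk q (Quotient.mk _ (d a (d b x)))
      rw [map_mul, Equiv.Perm.mul_apply]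

/-- Deck transformations of the infinite places. -/
def infPerm : A →* Equiv.Perm (InfPlaces σ) where
  toFun a :=
    { toFun := infMap (isEquivMap_deckPerm d hd a)
      invFun := infMap (isEquivMap_deckPerm d hd a⁻¹)
      left_inv := fun v => by
        induction v using Quotient.inductionOn with
        | _ x =>
          show (Quotient.mk _ (d a⁻¹ (d a x)) : InfPlaces σ) = _
          rw [← Equiv.Perm.mul_apply, ← map_mul, inv_mul_cancel, map_one, Equiv.Perm.one_apply]
      right_inv := fun v => by
        induction v using Quotient.inductionOn with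
        | _ x =>
          show (Quotient.mk _ (d a (d a⁻¹ x)) : InfPlaces σ) = _
          rw [← Equiv.Perm.mul_apply, ← map_mul, mul_inv_cancel, map_one, Equiv.Perm.one_apply] }
  map_one' := Equiv.ext fun v => by
    induction v using Quotient.inductionOn with
    | _ x =>
      show (Quotient.mk _ (d 1 x) : InfPlaces σ) = _
      rw [map_one, Equiv.Perm.one_apply]; rfl
  map_mul' a b := Equiv.ext fun v => by
    induction v using Quotient.inductionOn with
    | _ x =>
      show (Quotient.mk _ (d (a * b) x) : InfPlaces σ) = Quotient.mk _ (d a (d b x))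
      rw [map_mul, Equiv.Perm.mul_apply]

theorem infPerm_symm_mk (a : A) (x : X) :
    (infPerm d hd a).symm (Quotient.mk (infSetoid σ) x) = Quotient.mk (infSetoid σ) (d a⁻¹ x) := rfl

variable [Fintype A] {p : ℕ} [Fact p.Prime] {n : ℕ}
  {e : Matrix (Fin n) (Fin n) (MonoidAlgebra (ZMod p) A)}

/-- The weight of all places is that of the finite times that of the infinite ones. -/
theorem psi_allPlaces (he : e * e = e) (S : Finset Nat.Primes) :
    psi e (permFun (placesPerm d (isEquivMap_deckPerm d hd) S) (ZMod p)) =
      psi e (permFun (finPerm d hd S) (ZMod p)) * psi e (permFun (infPerm d hd) (ZMod p)) :=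
  psi_permFun_sum he _ _ _ (fun _ _ => rfl) fun _ _ => rfl

theorem cycloChar_conj : cycloChar p complexConjugation = -1 :=
  haveI : NeZero p := ⟨(Fact.out : p.Prime).ne_zero⟩
  Oddness.modularCyclotomicCharacter_of_involution p (card_rootsOfUnity_eq_self p)
    complexConjugation_mul_self Oddness.complexConjugation_ne_one

theorem two_ne_zero_zmod (hp2 : p ≠ 2) : (2 : ZMod p) ≠ 0 := fun h => by
  have h1 : ((2 : ℕ) : ZMod p) = 0 := by exact_mod_cast h
  exact hp2 ((Nat.prime_dvd_prime_iff_eq (Fact.out : p.Prime) Nat.prime_two).1
    ((ZMod.natCast_eq_zero_iff _ _).1 h1))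

/-- `Map(X, μ_p)` is its part fixed by complex conjugation plus the functions on infinite places. -/
theorem psi_permFun_conj (hp2 : p ≠ 2) (he : e * e = e) :
    psi e (permFun d (ZMod p)) =
      psi e (actFixed complexConjugation
          (permFun_equivariant d hd (muAct p))) * psi e (permFun (infPerm d hd) (ZMod p)) := by
  have hcc : ∀ x : X, σ complexConjugation (σ complexConjugation x) = x := fun x => by
    rw [← Equiv.Perm.mul_apply, ← map_mul, complexConjugation_mul_self, map_one,
      Equiv.Perm.one_apply]
  have hsym : ∀ x : X, (σ complexConjugation).symm x = σ complexConjugation x := fun x =>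
    (Equiv.symm_apply_eq _).2 (hcc x).symm
  let r : (X → ZMod p) →+ (InfPlaces σ → ZMod p) :=
    AddMonoidHom.mk' (fun φ z => Quotient.liftOn z (fun x => φ x + φ (σ complexConjugation x))
      fun x y h => by
        rcases h with h | h
        · rw [h]
        · rw [h, hcc, add_comm])
      fun φ ψ => funext fun z => by
        induction z using Quotient.inductionOn with
        | _ x => simp only [Pi.add_apply, Quotient.lift_mk]; abel
  have hfix : ∀ φ : X → ZMod p, φ ∈ fixedBy (permAct σ (muAct p)) complexConjugation ↔
      ∀ x, φ x + φ (σ complexConjugation x) = 0 := fun φ => by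
    rw [mem_fixedBy, funext_iff]
    refine forall_congr' fun x => ?_
    rw [permAct_apply, muAct_apply, cycloChar_conj, hsym, Units.val_neg, Units.val_one, neg_one_mul,
      neg_eq_iff_add_eq_zero, add_comm]
  refine psi_of_shortExact he pi_zmod_killed
    (f := (fixedBy (permAct σ (muAct p)) complexConjugation).subtype) (g := r)
    (fun _ _ => rfl) (fun a φ => funext fun z => ?_) Subtype.val_injective (fun w => ?_)
    fun φ => ⟨fun h => ⟨⟨φ, (hfix φ).2 fun x => congrFun h (Quotient.mk _ x)⟩, rfl⟩, ?_⟩
  · induction z using Quotient.inductionOn with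
    | _ x =>
      rw [permFun_apply, infPerm_symm_mk]
      show φ ((d a).symm x) + φ ((d a).symm (σ complexConjugation x)) =
        φ (d a⁻¹ x) + φ (σ complexConjugation (d a⁻¹ x))
      rw [perm_symm_apply_eq_inv, hd]
  · refine ⟨fun x => (2 : ZMod p)⁻¹ * w (Quotient.mk _ x), funext fun z => ?_⟩
    induction z using Quotient.inductionOn with
    | _ x =>
      show (2 : ZMod p)⁻¹ * w (Quotient.mk _ x) +
        (2 : ZMod p)⁻¹ * w (Quotient.mk _ (σ complexConjugation x)) = w (Quotient.mk _ x)
      rw [show (Quotient.mk (infSetoid σ) (σ complexConjugation x)) = Quotient.mk _ x from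
        (Quotient.sound (Or.inr rfl)).symm, ← two_mul, ← mul_assoc,
        mul_inv_cancel₀ (two_ne_zero_zmod hp2), one_mul]
  · rintro ⟨u, rfl⟩
    funext z
    induction z using Quotient.inductionOn with
    | _ x => exact (hfix u.1).1 u.2 x

end Fermat.Agent.TWEuler

end
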