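import Fermat.Agent.PoitouTate.Extension
import Fermat.Agent.PoitouTate.Inputs
import Fermat.Agent.PoitouTate.Outside
import Fermat.Agent.TWEuler.Ratio

/-!
# Finiteness and right exactness of cohomology unramified outside `S`

Finiteness and right exactness over `S` from the global inputs.
-/

set_option autoImplicit false

noncomputable section

open ExtCitation

namespace Fermat.Agent.TWEuler

open Fermat.Agent.PoitouTate

variable {p : ℕ} [hp : Fact p.Prime] {I : InvSystem p} {S : Finset Nat.Primes}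

/-- The Euler characteristics over `S` as a family multiplicative in covers. -/
def inputsEuler (hp2 : p ≠ 2) (hG : GlobalInputs I S) :
    EulerFamily (sLevels S) (muAct p) (cycloChar p) where
  e n := n / 2
  euler X _ σ ht hs hz := hG.euler X σ ht hs hz
  mul _ _ _ _ _ hz := Nat.mul_div_assoc p (even_natCard_of_hasZeta hp2 hz).two_dvd

theorem isSmooth_muAct_inputs (hpS : pPrime p ∈ S) : IsSmooth (sLevels S) (muAct p) :=
  let ⟨_, hU, h⟩ := exists_sLevel_cycloChar (p := p) hpS
  isSmooth_muAct_of_triv hU h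

/-- A level fixing a finite module and `μ_p`. -/
theorem exists_level_isTrivOn (hpS : pPrime p ∈ S) {A : Type} [AddCommGroup A] [Finite A]
    {ρ : Act GQ A} (hρ : IsSmooth (sLevels S) ρ) :
    ∃ U, (sLevels S).mem U ∧ IsTrivOn ρ (cycloChar p) U := by
  obtain ⟨U, hU, hχ⟩ := exists_sLevel_cycloChar (p := p) hpS
  obtain ⟨V, hV, hfix⟩ := hρ.exists_fixing (Set.finite_univ (α := A))
  obtain ⟨W, hW, hWU, hWV⟩ := (sLevels S).inf hU hV
  exact ⟨W, hW, fun u hu => ⟨hχ u (hWU hu), fun a => hfix u (hWV hu) a trivial⟩⟩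

theorem finite_H1_permAct_coset (hG : GlobalInputs I S) {U : Subgroup GQ}
    (hU : (sLevels S).mem U) (hχ : ∀ u ∈ U, cycloChar p u = 1) [Fintype (GQ ⧸ U)] :
    Finite (H1 (sLevels S) (permAct (cosetPerm U) (muAct p))) :=
  (hG.euler _ (cosetPerm U) (isTransitive_cosetPerm U) (isSmoothSet_cosetPerm hU le_rfl)
    (hasZeta_cosetPerm hχ)).1

theorem finite_H2_permAct_coset (hG : GlobalInputs I S) {U : Subgroup GQ}
    (hU : (sLevels S).mem U) (hχ : ∀ u ∈ U, cycloChar p u = 1) [Fintype (GQ ⧸ U)] :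
    Finite (H2 (sLevels S) (permAct (cosetPerm U) (muAct p))) :=
  (hG.euler _ (cosetPerm U) (isTransitive_cosetPerm U) (isSmoothSet_cosetPerm hU le_rfl)
    (hasZeta_cosetPerm hχ)).2.1

variable {A : Type} [AddCommGroup A] [Module (ZMod p) A] [Finite A] {ρ : Act GQ A}
  {U : Subgroup GQ}

/-- The matrix coefficient attached to a functional, as a function on `G ⧸ U`. -/
def coefFun (hUA : IsTrivOn ρ (cycloChar p) U) (ℓ : A →ₗ[ZMod p] ZMod p) :
    A →+ (GQ ⧸ U → ZMod p) where
  toFun a x := Quotient.liftOn' x (fun g => muAct p g (ℓ (ρ g⁻¹ a))) fun g g' h => by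
    rw [QuotientGroup.leftRel_apply] at h
    obtain ⟨u, hu, rfl⟩ : ∃ u ∈ U, g * u = g' := ⟨g⁻¹ * g', h, mul_inv_cancel_left _ _⟩
    have hχ : cycloChar p u = 1 := (hUA u hu).1
    rw [act_mul_apply (muAct p) g u, mul_inv_rev, act_mul_apply ρ u⁻¹,
      (hUA u⁻¹ (inv_mem hu)).2, muAct_apply p u, hχ, Units.val_one, one_mul]
  map_zero' := funext fun x => by
    induction x using QuotientGroup.induction_on with
    | H g =>
      show muAct p g (ℓ (ρ g⁻¹ 0)) = 0
      rw [map_zero, map_zero, map_zero]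
  map_add' a b := funext fun x => by
    induction x using QuotientGroup.induction_on with
    | H g =>
      show muAct p g (ℓ (ρ g⁻¹ (a + b))) = muAct p g (ℓ (ρ g⁻¹ a)) + muAct p g (ℓ (ρ g⁻¹ b))
      rw [map_add, map_add, map_add]

omit [Finite A] in
theorem coefFun_mk (hUA : IsTrivOn ρ (cycloChar p) U) (ℓ : A →ₗ[ZMod p] ZMod p) (a : A) (g : GQ) :
    coefFun hUA ℓ a (g : GQ ⧸ U) = muAct p g (ℓ (ρ g⁻¹ a)) := rfl

omit [Finite A] in
theorem coefFun_intertwines (hUA : IsTrivOn ρ (cycloChar p) U) (ℓ : A →ₗ[ZMod p] ZMod p) :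
    IsEquivariant ρ (permAct (cosetPerm U) (muAct p)) (coefFun hUA ℓ) := fun k a => funext fun x => by
  induction x using QuotientGroup.induction_on with
  | H g =>
    rw [MonoidHom.id_apply, permAct_apply, perm_symm_apply_eq_inv, coefFun_mk]
    show _ = muAct p k (coefFun hUA ℓ a ((k⁻¹ * g : GQ) : GQ ⧸ U))
    rw [coefFun_mk, ← act_mul_apply (muAct p), mul_inv_cancel_left, ← act_mul_apply ρ,
      mul_inv_rev, inv_inv]

/-- `H¹` of a finite smooth module killed by `p` is finite. -/
theorem finite_H1_of_inputs (hG : GlobalInputs I S) (hU : (sLevels S).mem U)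
    (hUA : IsTrivOn ρ (cycloChar p) U) : Finite (H1 (sLevels S) ρ) := by
  classical
  have := finite_coset hU (le_refl U)
  let _ : Fintype (GQ ⧸ U) := Fintype.ofFinite _
  have := finite_H1_permAct_coset hG hU fun u hu => (hUA u hu).1
  have : Finite (A →ₗ[ZMod p] ZMod p) :=
    Finite.of_injective (fun f => (f : A → ZMod p)) DFunLike.coe_injective
  let F : H1 (sLevels S) ρ →+ ((A →ₗ[ZMod p] ZMod p) →
      H1 (sLevels S) (permAct (cosetPerm U) (muAct p))) :=
    AddMonoidHom.mk' (fun x ℓ => H1.coef (coefFun hUA ℓ) (coefFun_intertwines hUA ℓ) x)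
      fun x y => funext fun _ => map_add _ x y
  have hinj : ∀ a b : A, (∀ ℓ, coefFun hUA ℓ a = coefFun hUA ℓ b) → a = b := by
    intro a b h
    rw [← sub_eq_zero]
    refine (Module.forall_dual_apply_eq_zero_iff (ZMod p) (a - b)).1 fun ℓ => ?_
    have h1 := congrFun (h ℓ) ((1 : GQ) : GQ ⧸ U)
    rw [coefFun_mk, coefFun_mk, inv_one, act_one_apply, act_one_apply, act_one_apply,
      act_one_apply] at h1
    rw [map_sub, h1, sub_self]
  have hker : Finite ↥F.ker := by
    choose lift hlift using (H1.mk_surjective (L := sLevels S) (ρ := ρ))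
    have hb : ∀ x : ↥F.ker, ∀ ℓ, ∃ b, d0 (permAct (cosetPerm U) (muAct p)) b =
        cochainMap₁ (MonoidHom.id GQ) (coefFun hUA ℓ) (lift x.1).1 := by
      intro x ℓ
      have h1 : H1.coef (coefFun hUA ℓ) (coefFun_intertwines hUA ℓ) x.1 = 0 := congrFun x.2 ℓ
      rw [← hlift x.1, H1.map_mk, H1.mk_eq_zero_iff] at h1
      exact h1
    choose b hb using hb
    refine Finite.of_injective b fun x y hxy => Subtype.ext ?_
    rw [← hlift x.1, ← hlift y.1]
    refine congrArg H1.mk (Subtype.ext (funext fun g => hinj _ _ fun ℓ => ?_))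
    have hx := congrFun (hb x ℓ) g
    have hy := congrFun (hb y ℓ) g
    rw [hxy, hy] at hx
    simpa using hx.symm
  have hcard := F.ker.card_mul_index
  rw [AddSubgroup.index_ker] at hcard
  exact Nat.finite_of_card_ne_zero
    (hcard ▸ mul_ne_zero Nat.card_pos.ne' (Nat.card_pos (α := F.range)).ne')

/-- `H²` of a finite smooth module killed by `p` is finite. -/
theorem finite_H2_of_inputs (hp2 : p ≠ 2) (hpS : pPrime p ∈ S) (hG : GlobalInputs I S)
    (hU : (sLevels S).mem U) (hUA : IsTrivOn ρ (cycloChar p) U) :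
    Finite (H2 (sLevels S) ρ) := by
  classical
  have := finite_coset hU (le_refl U)
  let _ : Fintype (GQ ⧸ U) := Fintype.ofFinite _
  let _ : Fintype A := Fintype.ofFinite A
  have := finite_H2_permAct_coset hG hU fun u hu => (hUA u hu).1
  let π : A → H2 (sLevels S) (permAct (cosetPerm U) (muAct p)) →+ H2 (sLevels S) ρ := fun a =>
    H2.coef (piMap (cycloChar p) ρ U a) (piMap_intertwines muAct_eq hUA a)
  let F : (A → H2 (sLevels S) (permAct (cosetPerm U) (muAct p))) →+ H2 (sLevels S) ρ :=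
    AddMonoidHom.mk' (fun v => ∑ a, π a (v a)) fun v w => by
      simp only [Pi.add_apply, map_add, Finset.sum_add_distrib]
  refine Finite.of_surjective F fun x => ?_
  have hx : x ∈ piSpan (L := sLevels S) muAct_eq hUA :=
    piSpan_eq_top (inputsEuler hp2 hG) muAct_eq (isSmooth_muAct_inputs hpS) hU hUA ▸
      AddSubgroup.mem_top x
  suffices x ∈ F.range from this
  refine AddSubgroup.iSup_induction _ (C := fun x => x ∈ F.range) hx
    (fun a x hx => ?_) (zero_mem _) fun _ _ => add_mem
  obtain ⟨z, rfl⟩ := hx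
  refine ⟨Pi.single a z, ?_⟩
  show ∑ a', π a' (Pi.single (M := fun _ => H2 (sLevels S) _) a z a') = _
  rw [Finset.sum_eq_single a (fun a' _ ha' => by rw [Pi.single_eq_of_ne ha', map_zero])
    (fun h => absurd (Finset.mem_univ a) h), Pi.single_eq_same]

omit A ρ U in
/-- The levels over `S` are right exact. -/
theorem rightExact_of_inputs (hp2 : p ≠ 2) (I : InvSystem p) {S : Finset Nat.Primes}
    (hpS : pPrime p ∈ S) (hG : GlobalInputs I S) : RightExact (sLevels S) p where
  finite₁ A _ _ ρ hρ hA := by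
    let := AddCommGroup.zmodModule hA
    obtain ⟨U, hU, hUA⟩ := exists_level_isTrivOn (p := p) hpS hρ
    exact finite_H1_of_inputs hG hU hUA
  finite₂ A _ _ ρ hρ hA := by
    let := AddCommGroup.zmodModule hA
    obtain ⟨U, hU, hUA⟩ := exists_level_isTrivOn (p := p) hpS hρ
    exact finite_H2_of_inputs hp2 hpS hG hU hUA
  surjective A B _ _ _ _ ρ σ π hπ hρ _ hA hs := by
    let := AddCommGroup.zmodModule hA
    have hB : ∀ b : B, p • b = 0 := fun b => by
      obtain ⟨a, rfl⟩ := hs b
      rw [← map_nsmul, hA, map_zero]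
    let := AddCommGroup.zmodModule hB
    obtain ⟨U, hU, hUA⟩ := exists_level_isTrivOn (p := p) hpS hρ
    have := finite_coset hU (le_refl U)
    let _ : Fintype (GQ ⧸ U) := Fintype.ofFinite _
    exact H2.surjective_coef (inputsEuler hp2 hG) muAct_eq (isSmooth_muAct_inputs hpS) hU hUA hπ hs

end Fermat.Agent.TWEuler

end
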