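import Fermat.Agent.PoitouTate.SUnitsRoots
import Fermat.Agent.PoitouTate.GlobalTUnits

/-!
# Cohomology of the `S`-units of a finite Galois set

`S`-units of a finite `G_ℚ`-set: the invariants are the `S`-units of the field of the set, and the
first cohomology is finite, as it embeds into the `S`-class group.
-/

set_option autoImplicit false

noncomputable section

open ExtCitation

namespace Fermat.Agent.TWEuler

open Fermat.Agent.PoitouTate

variable {S : Finset Nat.Primes} {X : Type} {σ : GQ →* Equiv.Perm X}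

theorem globalUnits_value (f : GlobalStar σ) (g : GQ) (x : X) :
    globalUnits g (f.1 x) = f.1 (σ g x) := by
  have h := congrFun (f.2 g) (σ g x)
  rwa [permAct_apply, Equiv.symm_apply_apply] at h

/-- An invariant function with values in `E_S` as an element of the field of the set. -/
def invSUnits : ↥(Inv (permAct σ (sUnitsAct S))) →+ GlobalStar σ :=
  ((mapVal (sUnitsBar S).subtype).comp (Inv (permAct σ (sUnitsAct S))).subtype).codRestrict _
    fun f g => funext fun x => congrArg Subtype.val (congrFun (f.2 g) x)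

@[simp] theorem invSUnits_apply (f : ↥(Inv (permAct σ (sUnitsAct S)))) (x : X) :
    (invSUnits f).1 x = ((f.1 x : ↥(sUnitsBar S)) : Additive QBarˣ) := rfl

theorem invSUnits_mem (f : ↥(Inv (permAct σ (sUnitsAct S)))) : invSUnits f ∈ tUnits S σ :=
  (mem_tUnits S).2 fun q hq x => by
    have h := (f.1 x).2.2 q hq 1
    rwa [act_one_apply] at h

/-- `H⁰(Map(X, E_S))` is the group of `S`-units of the field of `X`. -/
def invSUnitsEquiv (hσ : IsSmoothSet (sLevels S) σ) :
    ↥(Inv (permAct σ (sUnitsAct S))) ≃+ ↥(tUnits S σ) :=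
  AddEquiv.ofBijective (invSUnits.codRestrict (tUnits S σ) invSUnits_mem)
    ⟨fun a b h => Subtype.ext (funext fun x => Subtype.ext
      (congrFun (congrArg (fun u : ↥(tUnits S σ) => u.1.1) h) x)),
    fun u => ⟨⟨fun x => ⟨u.1.1 x, sField_value hσ u.1 x, fun q hq g => by
        rw [globalUnits_value]; exact (mem_tUnits S).1 u.2 q hq _⟩,
      fun g => funext fun x => Subtype.ext (congrFun (u.1.2 g) x)⟩, rfl⟩⟩

/-- `invSUnitsEquiv` does not change the values. -/
@[simp] theorem invSUnitsEquiv_apply (hσ : IsSmoothSet (sLevels S) σ)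
    (f : ↥(Inv (permAct σ (sUnitsAct S)))) (x : X) :
    (invSUnitsEquiv hσ f).1.1 x = ((f.1 x : ↥(sUnitsBar S)) : Additive QBarˣ) := rfl

/-- `H¹(Map(X, E_S))` is finite. -/
theorem finite_H1_sUnits [Finite X] (hσ : IsSmoothSet (sLevels S) σ) (htr : IsTransitive σ) :
    Finite (H1 (sLevels S) (permAct σ (sUnitsAct S))) := by
  classical
  have hσ' := isSmoothSet_allLevels_of_sLevels hσ
  have : Finite (ClassGroupT S σ) :=
    finite_classGroupT hσ' htr S (isUnramifiedSet_of_sLevels hσ)
  -- every cocycle is a coboundary of a function with values in `Q_S`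
  have key : ∀ z : ↥(z1 (sLevels S) (permAct σ (sUnitsAct S))), ∃ f : X → Additive QBarˣ,
      (∀ x, f x ∈ sField S) ∧ ∀ g x, ((z.1 g x : ↥(sUnitsBar S)) : Additive QBarˣ) =
        globalUnits g (f ((σ g).symm x)) - f x := by
    intro z
    obtain ⟨U, hU, hUσ⟩ := id hσ
    obtain ⟨V, hV, hVz⟩ := z.2.1
    obtain ⟨V', hV', hle⟩ := compat_all_sLevels S V hV
    obtain ⟨f, hf⟩ := h1Trivial_permAct (σ := σ)
      (fun K => h1Trivial_units isSmoothField_galField isExhaustive_galField K) ⊤
      (fun g => mapVal (sUnitsBar S).subtype (z.1 g))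
      ⟨V', hV', fun g _ s hs _ => by rw [hVz g s (hle hs)]⟩
      (fun g _ h _ => funext fun x => congrArg Subtype.val
        (congrFun (cocycle₁_mul z.2.2 g h) x))
    have hzf : ∀ g x, ((z.1 g x : ↥(sUnitsBar S)) : Additive QBarˣ) =
        globalUnits g (f ((σ g).symm x)) - f x := fun g x => congrFun (hf g trivial) x
    refine ⟨f, fun x => ?_, hzf⟩
    obtain ⟨W, hW, hWU, hWV⟩ := (sLevels S).inf hU hV
    refine ⟨W, hW, fun s hs => ?_⟩
    have h0 : z.1 s = 0 := by
      have h1 := hVz 1 s (hWV hs)
      rw [one_mul, cocycle₁_map_one z.2.2] at h1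
      exact h1
    have h2 := hzf s x
    rw [h0, hUσ s (hWU hs)] at h2
    exact sub_eq_zero.1 h2.symm
  choose f hf hzf using key
  have hord : ∀ z, ∀ q : Nat.Primes, q ∉ S → ∀ g x,
      ordQ q (embUnits q (globalUnits g (f z x))) = ordQ q (embUnits q (f z (σ g x))) := by
    intro z q hq g x
    have h1 := (z.1 g (σ g x)).2.2 q hq 1
    rw [act_one_apply, hzf, Equiv.symm_apply_apply, map_sub, map_sub, sub_eq_zero] at h1
    exact h1
  have hinv : ∀ z, ∀ q : Nat.Primes, q ∉ S → ∀ (g : GQl (q : ℕ)) x,
      ordQ q (embUnits q (f z (localPerm (q : ℕ) σ g x))) = ordQ q (embUnits q (f z x)) := by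
    intro z q hq g x
    rw [show localPerm (q : ℕ) σ g x = σ (localGaloisToGlobal (q : ℕ) g) x from rfl,
      ← hord z q hq, embUnits_intertwines, ordQ_smul]
  let D : ↥(z1 (sLevels S) (permAct σ (sUnitsAct S))) → ↥(divGroup S σ) := fun z =>
    ⟨fun q x => if q ∈ S then 0 else ordQ q (embUnits q (f z x)),
      (Set.finite_iUnion fun x => finite_ordQ_ne_zero (hf z x)).subset fun q hq => by
        rw [Set.mem_ofPred_eq, Function.ne_iff] at hq
        obtain ⟨x, hx⟩ := hq
        refine Set.mem_iUnion.2 ⟨x, fun h => hx ?_⟩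
        simp [h],
      fun q hq => funext fun x => if_pos hq,
      fun q => ⟨fun g x => by
        by_cases hq : q ∈ S
        · simp [hq]
        · simpa [hq] using hinv z q hq g x,
      fun x => by
        by_cases hq : q ∈ S
        · exact ⟨0, by simp [hq]⟩
        · simpa [hq] using exists_int_ordQ_of_mem_sField (hf z x) q hq⟩⟩
  choose lift hlift using
    (H1.mk_surjective (L := sLevels S) (ρ := permAct σ (sUnitsAct S)))
  refine Finite.of_injective (fun x => divClass S σ (D (lift x))) fun x y hxy => ?_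
  rw [← hlift x, ← hlift y]
  set z := lift x
  set w := lift y
  obtain ⟨G, hG⟩ : ∃ G : GlobalStar σ, forgetT S (ordAt σ G) = (D z).1 - (D w).1 := by
    have h1 := (QuotientAddGroup.eq_iff_sub_mem).1 hxy
    exact h1
  let h : X → ↥(sUnitsBar S) := fun x => ⟨f z x - f w x - G.1 x,
    sub_mem (sub_mem (hf z x) (hf w x)) (sField_value hσ G x), fun q hq g => by
      have h1 := congrFun (congrFun hG q) (σ g x)
      simp [forgetT, hq, D] at h1
      simp only [map_sub, hord z q hq, hord w q hq, globalUnits_value]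
      linarith⟩
  refine (H1.mk_eq_mk_iff z w).2 ⟨h, funext fun g => funext fun x => Subtype.ext ?_⟩
  show globalUnits g (f z ((σ g).symm x) - f w ((σ g).symm x) - G.1 ((σ g).symm x)) -
      (f z x - f w x - G.1 x) = ((z.1 g x : ↥(sUnitsBar S)) : Additive QBarˣ) - (w.1 g x : _)
  rw [hzf, hzf, map_sub, map_sub, globalUnits_value, Equiv.apply_symm_apply]
  abel

end Fermat.Agent.TWEuler

end
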