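import Fermat.Agent.TWEuler.Retract
import Mathlib.GroupTheory.Sylow
import Mathlib.FieldTheory.Finite.Basic

/-!
# The Euler characteristic identity with a trivial-intersection Sylow subgroup

The Euler characteristic identity for modules over a finite quotient `Γ` with a
trivial-intersection `p`-Sylow subgroup `P`, with normaliser `H`.

* `eulerHolds_coinduced`: modules coinduced from `H` satisfy the identity, by dévissage along the
  vectors fixed by `P`.
* `exists_shortExact_traceKer`: a module `V` embeds in `coindRes H μ` with quotient the kernel of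
  the trace, as `p` does not divide `[Γ : H]`.
* `exists_sum_conj_traceKer`, `exists_sum_conj_of_subgroup`: as `P` acts freely on the cosets of
  `H` other than `H` itself, this kernel has an endomorphism of trace one.
* `eulerHolds_of_TI`: hence the identity holds for `V`.
-/

set_option autoImplicit false

noncomputable section

namespace Fermat.Agent.TWEuler

open Fermat.Agent.PoitouTate

theorem end_mul_apply {W : Type*} [AddCommGroup W] (f g : AddMonoid.End W) (w : W) :
    (f * g) w = f (g w) := rfl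

theorem end_one_apply {W : Type*} [AddCommGroup W] (w : W) : (1 : AddMonoid.End W) w = w := rfl

section Perms

variable {G : Type*} [Group G] {Γ : Type} [Group Γ]

/-- Left translations through a homomorphism. -/
def leftPerm (π : G →* Γ) : G →* Equiv.Perm Γ := (MulAction.toPermHom Γ Γ).comp π

/-- Left translations of cosets through a homomorphism. -/
def leftQuot (π : G →* Γ) (P : Subgroup Γ) : G →* Equiv.Perm (Γ ⧸ P) :=
  (MulAction.toPermHom Γ (Γ ⧸ P)).comp π

/-- Right translations by inverses. -/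
def rightPerm {A : Type*} [Group A] (ι : A →* Γ) : A →* Equiv.Perm Γ where
  toFun a := Equiv.mulRight (ι a)⁻¹
  map_one' := Equiv.ext fun x => by simp
  map_mul' a b := Equiv.ext fun x => by simp [mul_assoc]

theorem leftPerm_apply (π : G →* Γ) (g : G) (x : Γ) : leftPerm π g x = π g * x := rfl

theorem leftPerm_symm_apply (π : G →* Γ) (g : G) (x : Γ) :
    (leftPerm π g).symm x = (π g)⁻¹ * x := by
  rw [Equiv.symm_apply_eq, leftPerm_apply, mul_inv_cancel_left]

theorem leftQuot_mk (π : G →* Γ) (P : Subgroup Γ) (g : G) (x : Γ) :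
    leftQuot π P g (x : Γ ⧸ P) = ((π g * x : Γ) : Γ ⧸ P) := rfl

theorem rightPerm_apply {A : Type*} [Group A] (ι : A →* Γ) (a : A) (x : Γ) :
    rightPerm ι a x = x * (ι a)⁻¹ := rfl

theorem deck_rightPerm (π : G →* Γ) {A : Type*} [Group A] (ι : A →* Γ) (g : G) (a : A) (x : Γ) :
    leftPerm π g (rightPerm ι a x) = rightPerm ι a (leftPerm π g x) := by
  simp only [leftPerm_apply, rightPerm_apply, mul_assoc]

/-- Right translations of cosets by the normalising subgroup. -/
def rightQuotAux (P H : Subgroup Γ) [hn : (P.subgroupOf H).Normal] (hPH : P ≤ H) :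
    H →* Equiv.Perm (Γ ⧸ P) :=
  quotPerm' (rightPerm H.subtype) fun h x y hxy => by
    rw [QuotientGroup.eq] at hxy ⊢
    have hm := (Subgroup.normal_subgroupOf_iff hPH).1 hn (x⁻¹ * y) (h : Γ) hxy h.2
    simpa [rightPerm_apply, mul_assoc] using hm
where
  quotPerm' (d : H →* Equiv.Perm Γ)
      (hd : ∀ (h : H) (x y : Γ), (QuotientGroup.mk x : Γ ⧸ P) = QuotientGroup.mk y →
        (QuotientGroup.mk (d h x) : Γ ⧸ P) = QuotientGroup.mk (d h y)) :
      H →* Equiv.Perm (Γ ⧸ P) :=
    { toFun := fun h =>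
        { toFun := Quotient.map' (d h) fun x y hxy =>
            QuotientGroup.leftRel_apply.2 (QuotientGroup.eq.1 (hd h x y
              (QuotientGroup.eq.2 (QuotientGroup.leftRel_apply.1 hxy))))
          invFun := Quotient.map' (d h⁻¹) fun x y hxy =>
            QuotientGroup.leftRel_apply.2 (QuotientGroup.eq.1 (hd h⁻¹ x y
              (QuotientGroup.eq.2 (QuotientGroup.leftRel_apply.1 hxy))))
          left_inv := fun O => Quotient.inductionOn' O fun x => by
            show ((d h⁻¹ (d h x) : Γ) : Γ ⧸ P) = x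
            rw [← Equiv.Perm.mul_apply, ← map_mul, inv_mul_cancel, map_one]; rfl
          right_inv := fun O => Quotient.inductionOn' O fun x => by
            show ((d h (d h⁻¹ x) : Γ) : Γ ⧸ P) = x
            rw [← Equiv.Perm.mul_apply, ← map_mul, mul_inv_cancel, map_one]; rfl }
      map_one' := Equiv.ext fun O => Quotient.inductionOn' O fun x => by
        show ((d 1 x : Γ) : Γ ⧸ P) = x
        rw [map_one]; rfl
      map_mul' := fun a b => Equiv.ext fun O => Quotient.inductionOn' O fun x => by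
        show ((d (a * b) x : Γ) : Γ ⧸ P) = ((d a (d b x) : Γ) : Γ ⧸ P)
        rw [map_mul]; rfl }

theorem rightQuotAux_mk (P H : Subgroup Γ) [(P.subgroupOf H).Normal] (hPH : P ≤ H) (h : H)
    (x : Γ) : rightQuotAux P H hPH h (x : Γ ⧸ P) = ((x * (h : Γ)⁻¹ : Γ) : Γ ⧸ P) := rfl

/-- The quotient of the normalising subgroup acting freely on cosets. -/
def rightQuot (P H : Subgroup Γ) [(P.subgroupOf H).Normal] (hPH : P ≤ H) :
    H ⧸ P.subgroupOf H →* Equiv.Perm (Γ ⧸ P) :=
  QuotientGroup.lift _ (rightQuotAux P H hPH) fun h hh => Equiv.ext fun O =>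
    QuotientGroup.induction_on O fun x => by
      rw [rightQuotAux_mk, Equiv.Perm.one_apply, QuotientGroup.eq]
      simpa [Subgroup.mem_subgroupOf] using hh

theorem rightQuot_mk (P H : Subgroup Γ) [(P.subgroupOf H).Normal] (hPH : P ≤ H) (h : H)
    (x : Γ) : rightQuot P H hPH (h : H ⧸ P.subgroupOf H) (x : Γ ⧸ P) =
      ((x * (h : Γ)⁻¹ : Γ) : Γ ⧸ P) := rfl

end Perms

variable {G : Type*} [Group G] {Γ : Type} [Group Γ] [Fintype Γ] {p : ℕ} [Fact p.Prime]
  (π : G →* Γ)

/-- All weights of all `Map(X, 𝔽_p(ψ))` satisfy the identity. -/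
def AllWeights (L : Levels G) (c : G) (ψ : Act G (ZMod p)) : Prop :=
  ∀ (X : Type) [Fintype X] (σ : G →* Equiv.Perm X) (A : Type) [Group A] [Fintype A]
    (d : A →* Equiv.Perm X) (hd : ∀ g a x, σ g (d a x) = d a (σ g x)),
    IsTransitive σ → IsSmoothSet L σ → (∀ g x, σ g x = x → ψ g 1 = 1) →
    (∀ a x, d a x = x → a = 1) →
    ∀ (n : ℕ) (e : Matrix (Fin n) (Fin n) (MonoidAlgebra (ZMod p) A)), e * e = e →
      WeightsHold L c (permFun_deck_equivariant σ d hd ψ) e

variable {L : Levels G} {c : G}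

theorem isSmooth_coind {A : Type*} [Group A] [Fintype A] {X M : Type} [Fintype X] [AddCommGroup M]
    {σ : G →* Equiv.Perm X} (hσ : IsSmoothSet L σ) (d : A →* Equiv.Perm X)
    (μ : A →* AddMonoid.End M) (hd : ∀ g a x, σ g (d a x) = d a (σ g x)) :
    IsSmooth L (coindAct σ d μ hd) := fun f => by
  obtain ⟨U, hU, hs⟩ := hσ
  refine ⟨U, hU, fun s hsU => Subtype.ext (funext fun x => ?_)⟩
  show f.1 ((σ s).symm x) = f.1 x
  rw [hs s hsU]; rfl

omit [Fintype Γ] in
theorem isSmoothSet_comp {X : Type*} (hker : ∃ U, L.mem U ∧ U ≤ π.ker)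
    (φ : Γ →* Equiv.Perm X) : IsSmoothSet L (φ.comp π) := by
  obtain ⟨U, hU, hle⟩ := hker
  exact ⟨U, hU, fun s hs => by rw [MonoidHom.comp_apply, show π s = 1 from hle hs, map_one]⟩

omit [Fintype Γ] in
/-- An action factoring through `π` is smooth when the kernel contains a level. -/
theorem isSmooth_comp_of_ker {Y : Type} [AddCommGroup Y] (hker : ∃ U, L.mem U ∧ U ≤ π.ker)
    (ρ : Γ →* AddMonoid.End Y) : IsSmooth L (ρ.comp π) := fun y => by
  obtain ⟨U, hU, hle⟩ := hker
  exact ⟨U, hU, fun s hs => by rw [MonoidHom.comp_apply, show π s = 1 from hle hs, map_one]; rfl⟩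

omit [Fintype Γ] in
theorem stab_leftQuot {P : Subgroup Γ} (hP : IsPGroup p P) {ψ : Act G (ZMod p)}
    (hψ : ∀ g, π g = 1 → ψ g 1 = 1) :
    ∀ g x, leftQuot π P g x = x → ψ g 1 = 1 := by
  intro g x
  induction x using QuotientGroup.induction_on with
  | H x =>
    intro hx
    rw [leftQuot_mk, QuotientGroup.eq] at hx
    obtain ⟨k, hk⟩ := hP ⟨_, hx⟩
    have hk' : ((π g * x)⁻¹ * x) ^ p ^ k = 1 := congrArg Subtype.val hk
    have he : (π g * x)⁻¹ * x = x⁻¹ * (π g)⁻¹ * x⁻¹⁻¹ := by group
    rw [he, conj_pow, inv_pow] at hk'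
    have hg : π (g ^ p ^ k) = 1 := by
      rw [map_pow]
      have h2 : ((π g) ^ p ^ k)⁻¹ = 1 := by
        calc ((π g) ^ p ^ k)⁻¹ = x * (x⁻¹ * ((π g) ^ p ^ k)⁻¹ * x⁻¹⁻¹) * x⁻¹ := by group
          _ = 1 := by rw [hk']; group
      exact inv_eq_one.1 h2
    have hpow : ∀ m, ψ (g ^ m) 1 = (ψ g 1) ^ m := by
      intro m
      induction m with
      | zero => rw [pow_zero, pow_zero, act_one_apply]
      | succ m ih =>
        rw [pow_succ', act_mul_apply, ih, act_zmod_apply ψ g, pow_succ]
    have := hψ _ hg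
    rwa [hpow, ZMod.pow_card_pow] at this

section Filtration

variable {P H : Subgroup Γ}

/-- Modules coinduced from `H` on which `P` acts trivially satisfy the identity. -/
theorem eulerHolds_of_trivial [Fintype H] [hn : (P.subgroupOf H).Normal] (hPH : P ≤ H)
    (hP : IsPGroup p P)
    (hidx : ¬p ∣ P.index) (hπ : Function.Surjective π) (hker : ∃ U, L.mem U ∧ U ≤ π.ker)
    (hre : RightExact L p) (hp2 : Odd p) (hc : c * c = 1) {ψ : Act G (ZMod p)}
    (hψ : ∀ g, π g = 1 → ψ g 1 = 1) (hN : AllWeights L c ψ) {W : Type} [AddCommGroup W]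
    [Finite W] (hW : ∀ w : W, p • w = 0) (μ : H →* AddMonoid.End W)
    (htriv : ∀ h ∈ P.subgroupOf H, μ h = 1) :
    EulerHolds L c (coindAct (leftPerm π) (rightPerm H.subtype) μ
      (deck_rightPerm π H.subtype)) := by
  classical
  let : Fintype (Γ ⧸ P) := Fintype.ofFinite _
  let : Fintype (H ⧸ P.subgroupOf H) := Fintype.ofFinite _
  let μ' : H ⧸ P.subgroupOf H →* AddMonoid.End W := QuotientGroup.lift _ μ htriv
  have hd : ∀ g a x, leftQuot π P g (rightQuot P H hPH a x) =
      rightQuot P H hPH a (leftQuot π P g x) := by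
    intro g a x
    induction a using QuotientGroup.induction_on with
    | H a =>
      induction x using QuotientGroup.induction_on with
      | H x => simp only [rightQuot_mk, leftQuot_mk, mul_assoc]
  have htr : IsTransitive (leftQuot π P) := by
    refine ⟨⟨((1 : Γ) : Γ ⧸ P)⟩, fun x y => ?_⟩
    induction x using QuotientGroup.induction_on with
    | H x =>
      induction y using QuotientGroup.induction_on with
      | H y =>
        obtain ⟨g, hg⟩ := hπ (y * x⁻¹)
        exact ⟨g, by rw [leftQuot_mk, hg, inv_mul_cancel_right]⟩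
  have hfree : ∀ a x, rightQuot P H hPH a x = x → a = 1 := by
    intro a x
    induction a using QuotientGroup.induction_on with
    | H a =>
      induction x using QuotientGroup.induction_on with
      | H x =>
        intro h
        rw [rightQuot_mk, QuotientGroup.eq] at h
        rw [QuotientGroup.eq_one_iff, Subgroup.mem_subgroupOf]
        simpa [mul_assoc] using h
  let := AddCommGroup.zmodModule hW
  have hm : ¬p ∣ Fintype.card (H ⧸ P.subgroupOf H) := fun h => hidx (by
    rw [Fintype.card_eq_nat_card] at h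
    exact h.trans (Subgroup.relIndex_dvd_index_of_le hPH))
  let m : ZMod p := (Fintype.card (H ⧸ P.subgroupOf H) : ℕ)
  have hm0 : m ≠ 0 := fun h => hm ((ZMod.natCast_eq_zero_iff _ _).1 h)
  have base := eulerHolds_coind (L := L) (c := c) (leftQuot π P) (rightQuot P H hPH) μ' hd htr ψ
    (stab_leftQuot π hP hψ) hfree (m⁻¹.val • AddMonoidHom.id W) (fun w => by
      simp only [AddMonoidHom.smul_apply, AddMonoidHom.id_apply, map_nsmul]
      rw [← Finset.smul_sum]
      simp_rw [← end_mul_apply, ← map_mul, inv_mul_cancel, map_one,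
        end_one_apply]
      rw [Finset.sum_const, Finset.card_univ, ← Nat.cast_smul_eq_nsmul (ZMod p),
        ← Nat.cast_smul_eq_nsmul (ZMod p) (Fintype.card _), smul_smul, ZMod.natCast_zmod_val,
        inv_mul_cancel₀ hm0, one_smul])
    (hN _ _ _ _ hd htr (isSmoothSet_comp π hker _) (stab_leftQuot π hP hψ) hfree)
  let φ : ↥(coind (rightPerm H.subtype) μ) →+ ↥(coind (rightQuot P H hPH) μ') :=
    AddMonoidHom.mk' (fun f => ⟨fun q => f.1 q.out, fun a q => by
      induction a using QuotientGroup.induction_on with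
      | H a =>
        induction q using QuotientGroup.induction_on with
        | H x =>
          have key : ∀ y : Γ, f.1 ((y : Γ ⧸ P)).out = f.1 y := fun y => by
            obtain ⟨k, hk⟩ := QuotientGroup.mk_out_eq_mul P y
            rw [hk]
            have h1 := f.2 (⟨k, hPH k.2⟩⁻¹ : H) y
            rw [rightPerm_apply, htriv _ (inv_mem (show (⟨k, hPH k.2⟩ : H) ∈ _ from k.2))] at h1
            simpa using h1
          simp only [rightQuot_mk, key]
          exact f.2 a x⟩) fun f g => rfl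
  have key : ∀ (f : ↥(coind (rightPerm H.subtype) μ)) (y : Γ),
      f.1 ((y : Γ ⧸ P)).out = f.1 y := fun f y => by
    obtain ⟨k, hk⟩ := QuotientGroup.mk_out_eq_mul P y
    rw [hk]
    have h1 := f.2 (⟨k, hPH k.2⟩⁻¹ : H) y
    rw [rightPerm_apply, htriv _ (inv_mem (show (⟨k, hPH k.2⟩ : H) ∈ _ from k.2))] at h1
    simpa using h1
  refine EulerHolds.of_bijective (φ := φ) (fun g f => Subtype.ext (funext fun q => ?_)) ?_ hre hp2
    (fun f => Subtype.ext (funext fun x => hW _)) (isSmooth_coind (isSmoothSet_comp π hker _) _ _ _)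
    (isSmooth_coind (isSmoothSet_comp π hker _) _ _ _) hc base
  · induction q using QuotientGroup.induction_on with
    | H x =>
      show (coindAct (leftPerm π) (rightPerm H.subtype) μ (deck_rightPerm π H.subtype) g f).1
          (x : Γ ⧸ P).out =
        f.1 ((leftQuot π P g).symm (x : Γ ⧸ P)).out
      have hx : (leftQuot π P g).symm (x : Γ ⧸ P) = (((π g)⁻¹ * x : Γ) : Γ ⧸ P) := by
        rw [Equiv.symm_apply_eq, leftQuot_mk, mul_inv_cancel_left]
      rw [key, hx, key, coindAct_apply, leftPerm_symm_apply]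
  · refine ⟨fun f f' h => Subtype.ext (funext fun x => ?_), fun f => ?_⟩
    · rw [← key f x, ← key f' x]
      exact congrFun (congrArg Subtype.val h) _
    · refine ⟨⟨fun x => f.1 x, fun a x => f.2 (a : H ⧸ P.subgroupOf H) x⟩,
        Subtype.ext (funext fun q => congrArg f.1 q.out_eq')⟩

variable [Fintype H] [hn : (P.subgroupOf H).Normal]

/-- Modules coinduced from `H` satisfy the identity. -/
theorem eulerHolds_coinduced (hPH : P ≤ H) (hP : IsPGroup p P)
    (hidx : ¬p ∣ P.index) (hπ : Function.Surjective π) (hker : ∃ U, L.mem U ∧ U ≤ π.ker)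
    (hre : RightExact L p) (hp2 : Odd p) (hc : c * c = 1) {ψ : Act G (ZMod p)}
    (hψ : ∀ g, π g = 1 → ψ g 1 = 1) (hN : AllWeights L c ψ) :
    ∀ {W : Type} [AddCommGroup W] [Finite W], (∀ w : W, p • w = 0) →
      ∀ (μ : H →* AddMonoid.End W), EulerHolds L c (coindAct (leftPerm π) (rightPerm H.subtype) μ
        (deck_rightPerm π H.subtype)) := by
  intro W _ _ hW μ
  induction hcard : Nat.card W using Nat.strong_induction_on generalizing W with
  | _ N ih =>
    subst hcard
    classical
    rcases subsingleton_or_nontrivial W with hs | hnt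
    · exact eulerHolds_of_subsingleton _ _ _
    let W₁ : AddSubgroup W :=
      { carrier := {w | ∀ h ∈ P.subgroupOf H, μ h w = w}
        add_mem' := fun {a b} ha hb h hh => by rw [map_add, ha h hh, hb h hh]
        zero_mem' := fun h _ => map_zero _
        neg_mem' := fun {a} ha h hh => by rw [map_neg, ha h hh] }
    have hinv : ∀ g, ∀ w ∈ W₁, μ g w ∈ W₁ := fun g w hw h hh => by
      have hc' : g⁻¹ * h * g ∈ P.subgroupOf H := by
        simpa using hn.conj_mem h hh g⁻¹
      calc μ h (μ g w) = (μ g * μ (g⁻¹ * h * g)) w := by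
            rw [← map_mul, mul_assoc g⁻¹, mul_inv_cancel_left, map_mul]; rfl
        _ = μ g w := by
            show μ g (μ (g⁻¹ * h * g) w) = μ g w
            rw [hw _ hc']
    -- `P` has a nonzero fixed vector
    have hne : Nontrivial W₁ := by
      let : MulAction ↥(P.subgroupOf H) W :=
        { smul := fun a w => μ (a : H) w
          one_smul := fun w => by show μ 1 w = w; rw [map_one]; rfl
          mul_smul := fun a b w => by
            show μ ((a : H) * b) w = μ a (μ b w); rw [map_mul]; rfl }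
      have hdvd : p ∣ Nat.card W := by
        obtain ⟨w, hw⟩ := exists_ne (0 : W)
        have h := addOrderOf_eq_prime (hW w) hw
        exact h ▸ addOrderOf_dvd_natCard w
      have hP' : IsPGroup p ↥(P.subgroupOf H) := hP.comap_subtype
      obtain ⟨w, hw, hne⟩ :=
        hP'.exists_fixed_point_of_prime_dvd_card_of_fixed_point W hdvd
          (a := 0) fun a => by
            show μ (a : H) (0 : W) = 0
            exact map_zero _
      exact ⟨⟨⟨w, fun h hh => hw ⟨h, hh⟩⟩, 0, fun e => hne (congrArg Subtype.val e).symm⟩⟩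
    let μ₁ : H →* AddMonoid.End W₁ := actSub μ W₁ hinv
    let μ₂ : H →* AddMonoid.End (W ⧸ W₁) :=
      { toFun := fun g => QuotientAddGroup.map _ _ (μ g) fun w hw => hinv g w hw
        map_one' := QuotientAddGroup.addMonoidHom_ext _ (AddMonoidHom.ext fun w => by
          show QuotientAddGroup.mk (μ 1 w) = QuotientAddGroup.mk w
          rw [map_one]; rfl)
        map_mul' := fun g h => QuotientAddGroup.addMonoidHom_ext _ (AddMonoidHom.ext fun w => by
          show QuotientAddGroup.mk (μ (g * h) w) = QuotientAddGroup.mk (μ g (μ h w))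
          rw [map_mul]; rfl) }
    have h1 := eulerHolds_of_trivial π hPH hP hidx hπ hker hre hp2 hc hψ hN
      (fun w => Subtype.ext (hW w)) μ₁ fun h hh => AddMonoidHom.ext fun w => Subtype.ext (w.2 h hh)
    have hlt : Nat.card (W ⧸ W₁) < Nat.card W := by
      have h2 : 1 < Nat.card W₁ := Finite.one_lt_card_iff_nontrivial.2 hne
      rw [AddSubgroup.card_eq_card_quotient_mul_card_addSubgroup W₁]
      exact lt_mul_of_one_lt_right Nat.card_pos h2
    have h2 := ih _ hlt (fun x => by
      induction x using QuotientAddGroup.induction_on with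
      | H x => exact congrArg QuotientAddGroup.mk (hW x)) μ₂ rfl
    let i : ↥(coind (rightPerm H.subtype) μ₁) →+ ↥(coind (rightPerm H.subtype) μ) :=
      AddMonoidHom.mk' (fun f => ⟨fun x => (f.1 x : W), fun a x => congrArg Subtype.val (f.2 a x)⟩)
        fun f g => rfl
    let q : ↥(coind (rightPerm H.subtype) μ) →+ ↥(coind (rightPerm H.subtype) μ₂) :=
      AddMonoidHom.mk' (fun f => ⟨fun x => QuotientAddGroup.mk (f.1 x),
        fun a x => congrArg QuotientAddGroup.mk (f.2 a x)⟩) fun f g => rfl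
    have hex : ShortExact (coindAct (leftPerm π) (rightPerm H.subtype) μ₁ (deck_rightPerm π _))
        (coindAct (leftPerm π) (rightPerm H.subtype) μ (deck_rightPerm π _))
        (coindAct (leftPerm π) (rightPerm H.subtype) μ₂ (deck_rightPerm π _)) i q := by
      refine ⟨fun g f => rfl, fun g f => rfl,
        fun f f' h => Subtype.ext (funext fun x => Subtype.ext (congrFun
          (congrArg Subtype.val h) x)),
        fun f => ?_, fun f => ⟨fun h => ?_, ?_⟩⟩
      · choose l hl using fun x : Γ => QuotientAddGroup.mk_surjective (f.1 x)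
        have hk : ∀ x : Γ, ((x : Γ ⧸ H).out)⁻¹ * x ∈ H := fun x =>
          QuotientGroup.eq.1 (QuotientGroup.out_eq' _)
        refine ⟨⟨fun x => μ ⟨_, hk x⟩⁻¹ (l (x : Γ ⧸ H).out), fun a x => ?_⟩,
          Subtype.ext (funext fun x => ?_)⟩
        · have hq : ((rightPerm H.subtype a x : Γ) : Γ ⧸ H) = x := by
            rw [rightPerm_apply, QuotientGroup.eq]
            simp [mul_assoc, a.2]
          show μ ⟨_, hk _⟩⁻¹ (l _) = μ a (μ ⟨_, hk x⟩⁻¹ (l _))
          rw [← end_mul_apply, ← map_mul]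
          have e : (⟨_, hk (rightPerm H.subtype a x)⟩ : H)⁻¹ = a * (⟨_, hk x⟩ : H)⁻¹ := by
            refine Subtype.ext ?_
            simp only [Subgroup.coe_inv, Subgroup.coe_mul, hq]
            simp [rightPerm_apply, mul_assoc]
          rw [e, hq]
        · show (QuotientAddGroup.mk (μ _ (l _)) : W ⧸ W₁) = f.1 x
          have h3 := f.2 (⟨_, hk x⟩⁻¹ : H) (x : Γ ⧸ H).out
          rw [rightPerm_apply] at h3
          calc (QuotientAddGroup.mk (μ _ (l _)) : W ⧸ W₁)
              = μ₂ (⟨_, hk x⟩⁻¹ : H) (QuotientAddGroup.mk (l (x : Γ ⧸ H).out)) := rfl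
            _ = μ₂ (⟨_, hk x⟩⁻¹ : H) (f.1 (x : Γ ⧸ H).out) := by rw [hl]
            _ = f.1 ((x : Γ ⧸ H).out * (((⟨_, hk x⟩⁻¹ : H) : Γ))⁻¹) := h3.symm
            _ = f.1 x := by
              simp
      · have h' : ∀ x, f.1 x ∈ W₁ := fun x =>
          (QuotientAddGroup.eq_zero_iff _).1 (congrFun (congrArg Subtype.val h) x)
        exact ⟨⟨fun x => ⟨f.1 x, h' x⟩, fun a x => Subtype.ext (f.2 a x)⟩, rfl⟩
      · rintro ⟨f, rfl⟩
        exact Subtype.ext (funext fun x => (QuotientAddGroup.eq_zero_iff _).2 (f.1 x).2)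
    exact EulerHolds.middle hex hre hp2 (fun f => Subtype.ext (funext fun x => hW _))
      (isSmooth_coind (isSmoothSet_comp π hker _) _ _ _)
      (isSmooth_coind (isSmoothSet_comp π hker _) _ _ _)
      (isSmooth_coind (isSmoothSet_comp π hker _) _ _ _) hc h1 h2

end Filtration

section Main

variable {V : Type} [AddCommGroup V]

/-! ### The trace of the module coinduced from a subgroup -/

section TraceKer

omit [Fintype Γ]

variable (H : Subgroup Γ) (μ : Γ →* AddMonoid.End V)

/-- The restriction of `V` to `H`, coinduced back to `Γ`. -/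
abbrev coindRes : AddSubgroup (Γ → V) := coind (rightPerm H.subtype) (μ.comp H.subtype)

/-- Left translation on `coindRes`. -/
def coindResAct : Act Γ ↥(coindRes H μ) :=
  coindAct (leftPerm (MonoidHom.id Γ)) (rightPerm H.subtype) (μ.comp H.subtype) (deck_rightPerm _ _)

/-- Left translation, evaluated at a point. -/
theorem coindResAct_apply (γ : Γ) (f : coindRes H μ) (x : Γ) :
    (coindResAct H μ γ f).1 x = f.1 (γ⁻¹ * x) := by
  show f.1 ((leftPerm (MonoidHom.id Γ) γ).symm x) = _
  rw [leftPerm_symm_apply]; rfl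

/-- The value in `V` of an element of `coindRes` on a coset of `H`. -/
def cosetValue : ↥(coindRes H μ) →+ (Γ ⧸ H → V) :=
  AddMonoidHom.mk' (fun f q => μ q.out (f.1 q.out)) fun f g => funext fun q => by
    simp only [AddSubgroup.coe_add, Pi.add_apply, map_add]

/-- The value on a coset does not depend on the representative. -/
theorem cosetValue_mk (f : coindRes H μ) (x : Γ) :
    cosetValue H μ f (x : Γ ⧸ H) = μ x (f.1 x) := by
  obtain ⟨k, hk⟩ := QuotientGroup.mk_out_eq_mul H x
  have e := f.2 (k⁻¹ : H) x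
  rw [rightPerm_apply] at e
  simp only [Subgroup.coe_subtype, Subgroup.coe_inv, inv_inv, MonoidHom.comp_apply] at e
  show μ (x : Γ ⧸ H).out (f.1 (x : Γ ⧸ H).out) = _
  rw [hk, e, ← end_mul_apply, ← map_mul, mul_inv_cancel_right]

/-- The embedding of `V` into `coindRes` by orbit maps. -/
def coindDiag : V →+ ↥(coindRes H μ) :=
  AddMonoidHom.mk' (fun v => ⟨fun x => μ x⁻¹ v, fun a x => by
      show μ (x * (a : Γ)⁻¹)⁻¹ v = μ a (μ x⁻¹ v)
      rw [mul_inv_rev, inv_inv, map_mul]; rfl⟩) fun v w =>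
    Subtype.ext (funext fun x => map_add _ v w)

/-- `coindDiag` is equivariant. -/
theorem coindDiag_act (γ : Γ) (v : V) :
    coindDiag H μ (μ γ v) = coindResAct H μ γ (coindDiag H μ v) := by
  refine Subtype.ext (funext fun x => ?_)
  rw [coindResAct_apply]
  show μ x⁻¹ (μ γ v) = μ (γ⁻¹ * x)⁻¹ v
  rw [mul_inv_rev, inv_inv, map_mul]; rfl

/-- The embedding of `V` into `coindRes` as the functions supported on `H`. -/
def coindSingle : V →+ ↥(coindRes H μ) := by
  classical
  exact AddMonoidHom.mk' (fun v => ⟨fun x => if x ∈ H then μ x⁻¹ v else 0, fun a x => by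
      show (if x * (a : Γ)⁻¹ ∈ H then μ (x * (a : Γ)⁻¹)⁻¹ v else 0) = _
      rw [mul_inv_rev, inv_inv, map_mul, H.mul_mem_cancel_right (inv_mem a.2)]
      by_cases hs : x ∈ H <;> simp [hs, end_mul_apply]⟩)
    fun v w => Subtype.ext (funext fun x => by
      simp only [AddSubgroup.coe_add, Pi.add_apply]
      split_ifs <;> simp)

/-- The values of `coindSingle`. -/
theorem coindSingle_apply [DecidablePred (· ∈ H)] (v : V) (x : Γ) :
    (coindSingle H μ v).1 x = if x ∈ H then μ x⁻¹ v else 0 := by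
  show @ite V (x ∈ H) (Classical.propDecidable _) (μ x⁻¹ v) 0 = _
  congr

/-- `coindSingle` is equivariant for `H`. -/
theorem coindResAct_single {h : Γ} (hh : h ∈ H) (v : V) :
    coindResAct H μ h (coindSingle H μ v) = coindSingle H μ (μ h v) := by
  classical
  refine Subtype.ext (funext fun x => ?_)
  simp only [coindResAct_apply, coindSingle_apply, H.mul_mem_cancel_left (inv_mem hh),
    mul_inv_rev, inv_inv, map_mul, end_mul_apply]

variable [Fintype (Γ ⧸ H)]

/-- The trace: the sum of the values on all cosets. -/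
def coindTrace : ↥(coindRes H μ) →+ V :=
  AddMonoidHom.mk' (fun f => ∑ q, cosetValue H μ f q) fun f g => by
    simp only [map_add, Pi.add_apply, Finset.sum_add_distrib]

/-- The trace is equivariant. -/
theorem coindTrace_act (γ : Γ) (f : coindRes H μ) :
    coindTrace H μ (coindResAct H μ γ f) = μ γ (coindTrace H μ f) := by
  show ∑ q, cosetValue H μ (coindResAct H μ γ f) q = μ γ (∑ q, cosetValue H μ f q)
  rw [map_sum]
  refine Fintype.sum_equiv (MulAction.toPerm γ⁻¹) _ _ fun q => ?_
  induction q using QuotientGroup.induction_on with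
  | H x =>
    show cosetValue H μ (coindResAct H μ γ f) (x : Γ ⧸ H) =
      μ γ (cosetValue H μ f ((γ⁻¹ * x : Γ) : Γ ⧸ H))
    rw [cosetValue_mk, cosetValue_mk, coindResAct_apply, ← end_mul_apply, ← map_mul,
      mul_inv_cancel_left]

/-- The trace of `coindDiag` is multiplication by `[Γ : H]`. -/
theorem coindTrace_diag (v : V) : coindTrace H μ (coindDiag H μ v) = Fintype.card (Γ ⧸ H) • v := by
  have e : ∀ q, cosetValue H μ (coindDiag H μ v) q = v := fun q => by
    show μ q.out (μ q.out⁻¹ v) = v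
    rw [← end_mul_apply, ← map_mul, mul_inv_cancel, map_one]; rfl
  show ∑ q, cosetValue H μ (coindDiag H μ v) q = _
  simp only [e, Finset.sum_const, Finset.card_univ]

/-- The trace of `coindSingle` is the identity. -/
theorem coindTrace_single (v : V) : coindTrace H μ (coindSingle H μ v) = v := by
  classical
  show ∑ q, cosetValue H μ (coindSingle H μ v) q = v
  rw [Finset.sum_eq_single ((1 : Γ) : Γ ⧸ H)]
  · simp [cosetValue_mk, coindSingle_apply, one_mem]
  · intro q _ hq
    induction q using QuotientGroup.induction_on with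
    | H x =>
      rw [cosetValue_mk, coindSingle_apply, if_neg, map_zero]
      exact fun h => hq (QuotientGroup.eq.2 (by simpa using inv_mem h))
  · simp

/-- The action of `Γ` on the kernel of the trace. -/
def traceKerAct : Γ →* AddMonoid.End ↥(coindTrace H μ).ker :=
  actSub (coindResAct H μ) (coindTrace H μ).ker fun γ f hf => by
    show coindTrace H μ (coindResAct H μ γ f) = 0
    rw [coindTrace_act, show coindTrace H μ f = 0 from hf, map_zero]

/-- When `p` does not divide `[Γ : H]`, the coinduced module is an extension of the kernel of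
the trace by `V`. -/
theorem exists_shortExact_traceKer (hV : ∀ v : V, p • v = 0)
    (hcard : ((Fintype.card (Γ ⧸ H) : ℕ) : ZMod p) ≠ 0) :
    ∃ (i : V →+ ↥(coindRes H μ)) (q : ↥(coindRes H μ) →+ ↥(coindTrace H μ).ker),
      ShortExact (μ.comp π) (coindAct (leftPerm π) (rightPerm H.subtype) (μ.comp H.subtype)
        (deck_rightPerm π _)) ((traceKerAct H μ).comp π) i q := by
  let := AddCommGroup.zmodModule hV
  let m : ZMod p := (Fintype.card (Γ ⧸ H) : ℕ)
  let D := coindDiag H μ
  let T := coindTrace H μ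
  have hdiag : ∀ v, T (D v) = m • v := fun v => by
    rw [coindTrace_diag, Nat.cast_smul_eq_nsmul]
  let pr : ↥(coindRes H μ) →+ ↥T.ker :=
    (AddMonoidHom.id _ - D.comp ((m⁻¹.val) • T)).codRestrict _ fun f => by
      show T (f - D (m⁻¹.val • T f)) = 0
      rw [map_sub, hdiag, ← Nat.cast_smul_eq_nsmul (ZMod p), ZMod.natCast_zmod_val, smul_smul,
        mul_inv_cancel₀ hcard, one_smul, sub_self]
  refine ⟨D, pr, fun g v => coindDiag_act H μ (π g) v, fun g f => Subtype.ext ?_,
    fun v w h => ?_, fun y => ⟨y.1, Subtype.ext ?_⟩, fun f => ⟨fun h => ?_, ?_⟩⟩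
  · show coindResAct H μ (π g) f - D (m⁻¹.val • T (coindResAct H μ (π g) f)) =
      coindResAct H μ (π g) (f - D (m⁻¹.val • T f))
    rw [map_sub, coindTrace_act, ← map_nsmul (μ (π g)), coindDiag_act]
  · simpa [D, coindDiag] using congrFun (congrArg Subtype.val h) 1
  · show y.1 - D (m⁻¹.val • T y.1) = y.1
    rw [show T y.1 = 0 from y.2, nsmul_zero, map_zero, sub_zero]
  · exact ⟨_, (sub_eq_zero.1 (congrArg Subtype.val h)).symm⟩
  · rintro ⟨v, rfl⟩
    refine Subtype.ext ?_
    show D v - D (m⁻¹.val • T (D v)) = 0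
    rw [hdiag, ← Nat.cast_smul_eq_nsmul (ZMod p), ZMod.natCast_zmod_val, smul_smul,
      inv_mul_cancel₀ hcard, one_smul, sub_self]

end TraceKer

/-! ### Trace-one endomorphisms -/

omit [Fintype Γ] [Fact p.Prime] in
/-- A `p`-Sylow subgroup with trivial intersections acts freely on the cosets of its normaliser
other than the trivial one. -/
theorem eq_one_of_smul_eq_of_TI (S : Sylow p Γ)
    (hTI : ∀ γ : Γ, γ ∉ Subgroup.normalizer ((S : Subgroup Γ) : Set Γ) → ∀ x ∈ (S : Subgroup Γ),
      γ⁻¹ * x * γ ∈ (S : Subgroup Γ) → x = 1)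
    {q : Γ ⧸ Subgroup.normalizer ((S : Subgroup Γ) : Set Γ)}
    (hq : q ≠ ((1 : Γ) : Γ ⧸ Subgroup.normalizer ((S : Subgroup Γ) : Set Γ)))
    {a : (S : Subgroup Γ)} (ha : a • q = q) : a = 1 := by
  induction q using QuotientGroup.induction_on with
  | H x =>
    have hxH : x ∉ Subgroup.normalizer ((S : Subgroup Γ) : Set Γ) := fun h =>
      hq (QuotientGroup.eq.2 (by simpa using h))
    have ha' := inv_mem (QuotientGroup.eq.1 ha : ((a : Γ) * x)⁻¹ * x ∈ _)
    have hH : x⁻¹ * (a : Γ) * x ∈ Subgroup.normalizer ((S : Subgroup Γ) : Set Γ) := by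
      simpa [mul_assoc] using ha'
    have hp' : IsPGroup p (Subgroup.zpowers (x⁻¹ * (a : Γ) * x)) := by
      obtain ⟨k, hk⟩ := S.2 a
      rintro ⟨y, n, rfl⟩
      refine ⟨k, Subtype.ext ?_⟩
      show ((x⁻¹ * (a : Γ) * x) ^ n) ^ p ^ k = 1
      have e : (x⁻¹ * (a : Γ) * x) ^ p ^ k = 1 := by
        have e' : x⁻¹ * (a : Γ) * x = x⁻¹ * (a : Γ) * x⁻¹⁻¹ := by rw [inv_inv]
        rw [e', conj_pow, show (a : Γ) ^ p ^ k = 1 from congrArg Subtype.val hk]
        group
      rw [← zpow_natCast, ← zpow_mul, mul_comm, zpow_mul, zpow_natCast, e, one_zpow]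
    have hin : x⁻¹ * (a : Γ) * x ∈
        Subgroup.zpowers (x⁻¹ * (a : Γ) * x) ⊓ (S : Subgroup Γ) := by
      rw [← hp'.inf_normalizer_sylow S]
      exact ⟨Subgroup.mem_zpowers _, hH⟩
    exact Subtype.ext (hTI x hxH a a.2 hin.2)

omit [Fintype Γ] in
/-- Keeping the value on one coset in each `P`-orbit: the `P`-conjugates of the resulting
endomorphism sum to the identity off the trivial coset. -/
theorem exists_orbit_mask (H P : Subgroup Γ) (μ : Γ →* AddMonoid.End V) [Fintype P] (hPH : P ≤ H)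
    (hfree : ∀ q : Γ ⧸ H, q ≠ ((1 : Γ) : Γ ⧸ H) → ∀ a : P, a • q = q → a = 1) :
    ∃ mask : ↥(coindRes H μ) →+ ↥(coindRes H μ), ∀ f,
      ∑ a : P, coindResAct H μ a (mask (coindResAct H μ (a : Γ)⁻¹ f)) =
        f - coindSingle H μ (cosetValue H μ f ((1 : Γ) : Γ ⧸ H)) := by
  classical
  let base : Γ ⧸ H := ((1 : Γ) : Γ ⧸ H)
  let orb : Setoid (Γ ⧸ H) := MulAction.orbitRel ↥P (Γ ⧸ H)
  let sel : Γ ⧸ H → Prop := fun q => q ≠ base ∧ (Quotient.mk orb q).out = q
  let mask : ↥(coindRes H μ) →+ ↥(coindRes H μ) := AddMonoidHom.mk' (fun f =>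
    ⟨fun x => if sel (x : Γ ⧸ H) then f.1 x else 0, fun a x => by
      show (if sel ((x * (a : Γ)⁻¹ : Γ) : Γ ⧸ H) then f.1 (rightPerm H.subtype a x) else 0) = _
      rw [QuotientGroup.mk_mul_of_mem x (inv_mem a.2), f.2 a x]
      by_cases hs : sel (x : Γ ⧸ H) <;> simp [hs]⟩)
    fun f g => Subtype.ext (funext fun x => by
      show (if sel (x : Γ ⧸ H) then f.1 x + g.1 x else 0) = _
      simp only [AddSubgroup.coe_add, Pi.add_apply]
      split_ifs <;> simp)
  refine ⟨mask, fun f => Subtype.ext (funext fun x => ?_)⟩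
  rw [AddSubgroup.val_finsetSum, Finset.sum_apply]
  simp only [coindResAct_apply]
  show ∑ a : P, (if sel (((a : Γ)⁻¹ * x : Γ) : Γ ⧸ H) then
      (coindResAct H μ (a : Γ)⁻¹ f).1 ((a : Γ)⁻¹ * x) else 0) =
    f.1 x - (coindSingle H μ (cosetValue H μ f base)).1 x
  simp only [coindResAct_apply, inv_inv, mul_inv_cancel_left, coindSingle_apply]
  have hfix : ∀ a : P, a • base = base := fun a =>
    QuotientGroup.eq.2 (by simpa using hPH a.2)
  by_cases hb : (x : Γ ⧸ H) = base
  · have hn : ∀ a : P, ¬sel (((a : Γ)⁻¹ * x : Γ) : Γ ⧸ H) := fun a h => h.1 (by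
      show a⁻¹ • (x : Γ ⧸ H) = base
      rw [hb, hfix])
    have hx : x ∈ H := by simpa using QuotientGroup.eq.1 hb.symm
    simp only [hn, if_false, Finset.sum_const_zero, if_pos hx]
    rw [← hb, cosetValue_mk, ← end_mul_apply, ← map_mul, inv_mul_cancel, map_one,
      end_one_apply, sub_self]
  · rw [if_neg fun hx : x ∈ H => hb (QuotientGroup.eq.2 (by simpa using hx)), sub_zero]
    obtain ⟨a₀, ha₀⟩ : (Quotient.mk orb (x : Γ ⧸ H)).out ∈ MulAction.orbit ↥P (x : Γ ⧸ H) :=
      MulAction.orbitRel_apply.1 (Quotient.exact (Quotient.out_eq _))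
    have hkey : ∀ a : P, sel (((a : Γ)⁻¹ * x : Γ) : Γ ⧸ H) ↔ a = a₀⁻¹ := by
      intro a
      have he : (((a : Γ)⁻¹ * x : Γ) : Γ ⧸ H) = a⁻¹ • (x : Γ ⧸ H) := rfl
      have hcl : Quotient.mk orb (a⁻¹ • (x : Γ ⧸ H)) = Quotient.mk orb (x : Γ ⧸ H) :=
        Quotient.sound (MulAction.orbitRel_apply.2 (MulAction.mem_orbit _ _))
      constructor
      · rintro ⟨_, h2⟩
        rw [he, hcl] at h2
        have h3 : (a * a₀) • (x : Γ ⧸ H) = (x : Γ ⧸ H) := by
          rw [mul_smul]
          exact (congrArg (a • ·) (ha₀.trans h2)).trans (smul_inv_smul a _)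
        exact eq_inv_of_mul_eq_one_left (hfree _ hb _ h3)
      · intro h
        refine ⟨fun h' => hb ?_, ?_⟩
        · rw [he, inv_smul_eq_iff] at h'
          rw [h', hfix]
        · rw [he, hcl, h, inv_inv]
          exact ha₀.symm
    simp only [hkey, Finset.sum_ite_eq', Finset.mem_univ, if_true]

omit [Fintype Γ] in
/-- If `P ≤ H` acts freely off the trivial coset, the kernel of the trace has an endomorphism
whose conjugates under `P` sum to the identity. -/
theorem exists_sum_conj_traceKer (H P : Subgroup Γ) (μ : Γ →* AddMonoid.End V)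
    [Fintype (Γ ⧸ H)] [Fintype P] (hPH : P ≤ H)
    (hfree : ∀ q : Γ ⧸ H, q ≠ ((1 : Γ) : Γ ⧸ H) → ∀ a : P, a • q = q → a = 1) :
    ∃ θ : ↥(coindTrace H μ).ker →+ ↥(coindTrace H μ).ker, ∀ y,
      ∑ a : P, traceKerAct H μ a (θ (traceKerAct H μ (a : Γ)⁻¹ y)) = y := by
  obtain ⟨mask, hmask⟩ := exists_orbit_mask H P μ hPH hfree
  let S := coindSingle H μ
  let T := coindTrace H μ
  let τ := coindResAct H μ
  refine ⟨((mask - S.comp (T.comp mask)).comp T.ker.subtype).codRestrict _ fun y => ?_,
    fun y => Subtype.ext ?_⟩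
  · show T (mask y.1 - S (T (mask y.1))) = 0
    rw [map_sub, coindTrace_single, sub_self]
  · rw [AddSubgroup.val_finsetSum]
    show ∑ a : P, τ a (mask (τ (a : Γ)⁻¹ y.1) - S (T (mask (τ (a : Γ)⁻¹ y.1)))) = y.1
    simp only [map_sub, fun a : P => coindResAct_single H μ (hPH a.2), τ, S, T,
      ← coindTrace_act, Finset.sum_sub_distrib, ← map_sum, hmask]
    rw [show coindTrace H μ y.1 = 0 from y.2, coindTrace_single, map_zero]
    abel

/-- An endomorphism whose conjugates under a subgroup of index prime to `p` sum to the identity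
gives one whose conjugates under the whole group do. -/
theorem exists_sum_conj_of_subgroup {Y : Type} [AddCommGroup Y] (hY : ∀ y : Y, p • y = 0)
    (ρ : Γ →* AddMonoid.End Y) (P : Subgroup Γ) [Fintype P] (hidx : ¬p ∣ P.index)
    (θP : Y →+ Y) (hθP : ∀ y, ∑ a : P, ρ a (θP (ρ (a : Γ)⁻¹ y)) = y) :
    ∃ θ : Y →+ Y, ∀ y, ∑ γ : Γ, ρ γ⁻¹ (θ (ρ γ y)) = y := by
  classical
  let : Fintype (Γ ⧸ P) := Fintype.ofFinite _
  let := AddCommGroup.zmodModule hY
  let r : ZMod p := (P.index : ℕ)
  have hr0 : r ≠ 0 := fun h => hidx ((ZMod.natCast_eq_zero_iff _ _).1 h)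
  let θ : Y →+ Y := r⁻¹.val • θP
  refine ⟨θ, fun y => ?_⟩
  let E : (Γ ⧸ P) × P ≃ Γ :=
    { toFun := fun z => z.1.out * (z.2 : Γ)
      invFun := fun x => ((x : Γ ⧸ P), ⟨((x : Γ ⧸ P)).out⁻¹ * x,
        QuotientGroup.eq.1 (QuotientGroup.out_eq' _)⟩)
      left_inv := fun z => by
        have h1 : ((z.1.out * (z.2 : Γ) : Γ) : Γ ⧸ P) = z.1 := by
          rw [QuotientGroup.mk_mul_of_mem _ z.2.2, QuotientGroup.out_eq']
        refine Prod.ext h1 (Subtype.ext ?_)
        show ((z.1.out * (z.2 : Γ) : Γ) : Γ ⧸ P).out⁻¹ * (z.1.out * z.2) = z.2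
        rw [h1, inv_mul_cancel_left]
      right_inv := fun x => mul_inv_cancel_left _ x }
  rw [← Equiv.sum_comp (Equiv.inv Γ) fun a => ρ a⁻¹ (θ (ρ a y)),
    ← Equiv.sum_comp E, Fintype.sum_prod_type]
  have e : ∀ (q : Γ ⧸ P), ∑ a : P, ρ (Equiv.inv Γ (E (q, a)))⁻¹
      (θ (ρ (Equiv.inv Γ (E (q, a))) y)) = r⁻¹.val • y := by
    intro q
    have hsym : ∀ a : P, E (q, a) = q.out * a := fun a => rfl
    simp only [hsym, Equiv.inv_apply, inv_inv, θ, AddMonoidHom.smul_apply, map_nsmul,
      ← Finset.smul_sum]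
    congr 1
    simp only [map_mul, mul_inv_rev, end_mul_apply, ← map_sum]
    rw [hθP (ρ q.out⁻¹ y), ← end_mul_apply, ← map_mul, mul_inv_cancel, map_one, end_one_apply]
  rw [Finset.sum_congr rfl fun q _ => e q, Finset.sum_const, Finset.card_univ,
    ← Nat.cast_smul_eq_nsmul (ZMod p), ← Nat.cast_smul_eq_nsmul (ZMod p) r⁻¹.val, smul_smul,
    ZMod.natCast_zmod_val, Fintype.card_eq_nat_card]
  rw [show ((Nat.card (Γ ⧸ P) : ℕ) : ZMod p) = r from rfl, mul_inv_cancel₀ hr0, one_smul]

/-- A module with an endomorphism whose conjugates sum to the identity satisfies the identity: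
it is isomorphic to the module coinduced from `Γ` itself, to which `eulerHolds_coind`
applies. -/
theorem eulerHolds_of_sum_conj (hπ : Function.Surjective π) (hker : ∃ U, L.mem U ∧ U ≤ π.ker)
    (hre : RightExact L p) (hp2 : Odd p) (hc : c * c = 1) {ψ : Act G (ZMod p)}
    (hψ : ∀ g, π g = 1 → ψ g 1 = 1) (hN : AllWeights L c ψ) {Y : Type} [AddCommGroup Y]
    [Finite Y] (hY : ∀ y : Y, p • y = 0) (ρ : Γ →* AddMonoid.End Y) (θ : Y →+ Y)
    (hθ : ∀ y, ∑ γ : Γ, ρ γ⁻¹ (θ (ρ γ y)) = y) : EulerHolds L c (ρ.comp π) := by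
  let := AddCommGroup.zmodModule hY
  have htr : IsTransitive (leftPerm π) := ⟨⟨1⟩, fun x y => by
    obtain ⟨g, hg⟩ := hπ (y * x⁻¹)
    exact ⟨g, by rw [leftPerm_apply, hg, inv_mul_cancel_right]⟩⟩
  have hfree : ∀ (a : Γ) (x : Γ), rightPerm (MonoidHom.id Γ) a x = x → a = 1 := fun a x h => by
    simpa [rightPerm_apply] using h
  have hstab : ∀ g (x : Γ), leftPerm π g x = x → ψ g 1 = 1 := fun g x h => hψ g (by
    simpa [leftPerm_apply] using h)
  have base := eulerHolds_coind (L := L) (c := c) (leftPerm π) (rightPerm (MonoidHom.id Γ)) ρ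
    (deck_rightPerm π _) htr ψ hstab hfree θ hθ
    (hN _ _ _ _ (deck_rightPerm π _) htr (isSmoothSet_comp π hker _) hstab hfree)
  let φ : Y →+ ↥(coind (rightPerm (MonoidHom.id Γ)) ρ) :=
    AddMonoidHom.mk' (fun y => ⟨fun x => ρ x⁻¹ y, fun a x => by
      show ρ (x * a⁻¹)⁻¹ y = ρ a (ρ x⁻¹ y)
      rw [mul_inv_rev, inv_inv, map_mul]; rfl⟩) fun y y' =>
      Subtype.ext (funext fun x => map_add _ y y')
  refine EulerHolds.of_bijective (φ := φ) (fun g y => Subtype.ext (funext fun x => ?_)) ⟨?_, ?_⟩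
    hre hp2 hY (isSmooth_comp_of_ker π hker ρ)
    (isSmooth_coind (isSmoothSet_comp π hker _) _ _ _) hc base
  · show ρ x⁻¹ (ρ (π g) y) = ρ ((leftPerm π g).symm x)⁻¹ y
    rw [leftPerm_symm_apply, mul_inv_rev, inv_inv, map_mul]; rfl
  · intro y y' h
    simpa [φ] using congrFun (congrArg Subtype.val h) 1
  · intro f
    refine ⟨f.1 1, Subtype.ext (funext fun x => ?_)⟩
    have h := f.2 (x⁻¹ : Γ) 1
    rw [rightPerm_apply] at h
    simp only [MonoidHom.id_apply, inv_inv, one_mul] at h
    exact h.symm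

variable [Finite V]

/-- The Euler characteristic identity for a module over a quotient with TI `p`-Sylow subgroup:
`V` is the kernel of a surjection from `coindRes`, coinduced from the normaliser of the subgroup,
onto the kernel of the trace, which has a trace-one endomorphism. -/
theorem eulerHolds_of_TI (hπ : Function.Surjective π) (hker : ∃ U, L.mem U ∧ U ≤ π.ker)
    (hre : RightExact L p) (hp2 : Odd p) (hc : c * c = 1) {ψ : Act G (ZMod p)}
    (hψ : ∀ g, π g = 1 → ψ g 1 = 1) (hN : AllWeights L c ψ) (S : Sylow p Γ)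
    (hTI : ∀ γ : Γ, γ ∉ Subgroup.normalizer ((S : Subgroup Γ) : Set Γ) → ∀ x ∈ (S : Subgroup Γ),
      γ⁻¹ * x * γ ∈ (S : Subgroup Γ) → x = 1)
    (hV : ∀ v : V, p • v = 0) (μ : Γ →* AddMonoid.End V) :
    EulerHolds L c (μ.comp π) := by
  classical
  let H : Subgroup Γ := Subgroup.normalizer ((S : Subgroup Γ) : Set Γ)
  have hPH : (S : Subgroup Γ) ≤ H := Subgroup.le_normalizer
  have hidx : ¬p ∣ (S : Subgroup Γ).index := Sylow.not_dvd_index S
  let : Fintype (Γ ⧸ H) := Fintype.ofFinite _
  let : Fintype ↥(S : Subgroup Γ) := Fintype.ofFinite _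
  let : Fintype ↥H := Fintype.ofFinite _
  have hcard : ((Fintype.card (Γ ⧸ H) : ℕ) : ZMod p) ≠ 0 := fun h => hidx (by
    have h' := (ZMod.natCast_eq_zero_iff _ _).1 h
    rw [Fintype.card_eq_nat_card] at h'
    exact h'.trans (Subgroup.index_dvd_of_le hPH))
  have hY : ∀ y : (coindTrace H μ).ker, p • y = 0 :=
    fun y => Subtype.ext (Subtype.ext (funext fun x => hV _))
  obtain ⟨i, q, hex⟩ := exists_shortExact_traceKer π H μ hV hcard
  obtain ⟨θP, hθP⟩ := exists_sum_conj_traceKer H (S : Subgroup Γ) μ hPH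
    fun q hq a => eq_one_of_smul_eq_of_TI S hTI hq
  obtain ⟨θ, hθ⟩ := exists_sum_conj_of_subgroup hY (traceKerAct H μ) _ hidx θP hθP
  have hC := eulerHolds_coinduced π hPH S.2 hidx hπ hker hre hp2 hc hψ hN hV (μ.comp H.subtype)
  refine EulerHolds.left hex hre hp2 (fun f => Subtype.ext (funext fun x => hV _))
    (isSmooth_coind (isSmoothSet_comp π hker _) _ _ _) (isSmooth_comp_of_ker π hker _)
    hc hC (eulerHolds_of_sum_conj π hπ hker hre hp2 hc hψ hN hY _ θ hθ)

end Main

end Fermat.Agent.TWEuler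

end
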