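import Fermat.Agent.PoitouTate.GlobalInputsProof
import Fermat.Agent.TWEuler.RightExactInputs
import Fermat.Agent.TWEuler.SUnitsH1
import Fermat.Agent.TWEuler.PlacesWeights
import Fermat.Agent.TWEuler.TI

/-!
# The weights of `Map(X, μ_p)` over a finite set of primes

The weights of `Map(X, μ_p)` over `S` satisfy the Euler characteristic identity.
-/

set_option autoImplicit false

noncomputable section

open ExtCitation

namespace Fermat.Agent.TWEuler

open Fermat.Agent.PoitouTate Fermat.Agent.DeckUnits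

section General

variable {G : Type*} [Group G] {A B C : Type*} [AddCommGroup A] [AddCommGroup B] [AddCommGroup C]
  {ρ : Act G A} {σ : Act G B} {τ : Act G C} {ι : A →+ B} {π : B →+ C} {L : Levels G}

/-- Naturality of the connecting homomorphism in degree zero. -/
theorem shortExact_map_δ₀ (h : ShortExact ρ σ τ ι π) (hσ : IsSmooth L σ) (α : A →+ A) (β : B →+ B)
    (γ : C →+ C) (hα : IsEquivariant ρ ρ α) (hβ : IsEquivariant σ σ β) (hγ : IsEquivariant τ τ γ)
    (e₁ : ∀ a, β (ι a) = ι (α a)) (e₂ : ∀ b, γ (π b) = π (β b)) (c : ↥(Inv τ)) :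
    H1.coef α hα (h.δ₀ hσ c) = h.δ₀ hσ (Inv.map' γ hγ c) := by
  obtain ⟨b, a, hb, ha⟩ := h.exists_lift₀ hσ c
  rw [h.δ₀_mk hσ a hb ha, H1.map_mk]
  symm
  refine h.δ₀_mk hσ (b := β b) _ (by rw [← e₂, hb, Inv.coe_map']) fun g => ?_
  have e3 : β (σ g b) = σ g (β b) := hβ g b
  show ι (α (a.1 g)) = σ g (β b) - β b
  rw [← e₁, ha, ← e3, ← map_sub, d0_apply]

end General

variable {p : ℕ} [hp : Fact p.Prime] {S : Finset Nat.Primes}

theorem H1.killed_permAct {X : Type} {σ : GQ →* Equiv.Perm X}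
    (x : H1 (sLevels S) (permAct σ (muAct p))) : p • x = 0 := by
  obtain ⟨c, rfl⟩ := H1.mk_surjective x
  rw [← map_nsmul, show p • c = 0 from
    Subtype.ext (funext fun g => pi_zmod_killed (c.1 g)), map_zero]

variable {X : Type} [Fintype X] {σ : GQ →* Equiv.Perm X} {A : Type} [Group A] [Fintype A]
  (d : A →* Equiv.Perm X) (hd : ∀ g a x, σ g (d a x) = d a (σ g x)) {n : ℕ}
  {e : Matrix (Fin n) (Fin n) (MonoidAlgebra (ZMod p) A)}

/-- The deck action on functions with values in the `S`-units. -/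
abbrev hDeckE (S : Finset Nat.Primes) :=
  permFun_equivariant (σ := σ) d hd (sUnitsAct S)

omit [Fintype X] in
theorem inv_mu_weight (hpS : pPrime p ∈ S) :
    psi e (actInv (permFun_deck_equivariant σ d hd (muAct p))) =
      psi e (actTors p (actInv (hDeckE d hd S))) := by
  have h := shortExact_sUnits hpS σ
  let f : ↥(Inv (permAct σ (muAct p))) →+ pTors p ↥(Inv (permAct σ (sUnitsAct S))) :=
    (Inv.map' _ h.equiv_ι).codRestrict _ fun x => by
      rw [mem_pTors]
      exact (Subtype.ext (funext fun _ => rfl)).trans ((h.exact_inv _).2 ⟨x, rfl⟩)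
  refine psi_congr (e := e) (AddEquiv.ofBijective f ⟨fun a b hab =>
    h.inv_injective (congrArg Subtype.val hab), fun u => ?_⟩) fun a x => rfl
  obtain ⟨x, hx⟩ := (h.exact_inv u.1).1 u.2
  exact ⟨x, Subtype.ext hx⟩

theorem H1_mu_weight (he : e * e = e) (hpS : pPrime p ∈ S) (hσ : IsSmoothSet (sLevels S) σ) :
    psi e (actH1 (sLevels S) (permFun_deck_equivariant σ d hd (muAct p))) =
      psi e (actQuot p (actInv (hDeckE d hd S))) *
        psi e (actTors p (U := H1 (sLevels S) (permAct σ (sUnitsAct S)))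
          (actH1 (sLevels S) (hDeckE d hd S))) := by
  have h := shortExact_sUnits hpS σ
  have hsm := isSmooth_permAct hσ (isSmooth_sUnitsAct S)
  have hmap : ∀ y : H1 (sLevels S) (permAct σ (sUnitsAct S)),
      H1.coef _ h.equiv_π y = p • y := fun y => by
    obtain ⟨c, rfl⟩ := H1.mk_surjective y
    rw [H1.map_mk, ← map_nsmul]
    rfl
  let g : H1 (sLevels S) (permAct σ (muAct p)) →+ pTors p (H1 (sLevels S) (permAct σ (sUnitsAct S))) :=
    (H1.coef _ h.equiv_ι).codRestrict _ fun x => by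
      rw [mem_pTors, ← hmap]
      exact (h.exact_H1 hsm _).2 ⟨x, rfl⟩
  refine psi_of_pExact he H1.killed_permAct (h.δ₀ hsm) g (fun a u => ?_) (fun a x => ?_)
    (fun u => ?_) (fun y => ?_) fun x => ?_
  · exact (shortExact_map_δ₀ h hsm _ _ _ (permFun_deck_equivariant σ d hd (muAct p) a)
      (hDeckE d hd S a) (hDeckE d hd S a) (fun _ => rfl) (fun _ => rfl) u).symm
  · obtain ⟨c, rfl⟩ := H1.mk_surjective x
    exact Subtype.ext rfl
  · refine (h.exact_inv_δ₀ hsm u).trans ⟨fun ⟨v, hv⟩ => ⟨v, ?_⟩, fun ⟨v, hv⟩ => ⟨v, ?_⟩⟩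
    · rw [← hv]; exact Subtype.ext (funext fun _ => rfl)
    · rw [← hv]; exact Subtype.ext (funext fun _ => rfl)
  · obtain ⟨x, hx⟩ := (h.exact_H1 hsm y.1).1 (by rw [hmap]; exact y.2)
    exact ⟨x, Subtype.ext hx⟩
  · exact (Subtype.ext_iff).trans (h.exact_δ₀_H1 hsm x)

omit [Fintype A] in
/-- The invariants commute with deck transformations. -/
theorem invariantsS_deck (I : InvSystem p) (a : A) (z : H2 (sLevels S) (permAct σ (muAct p))) :
    invariantsS I S σ (actH2 (sLevels S) (permFun_deck_equivariant σ d hd (muAct p)) a z) =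
      permFun (finPerm d hd S) (ZMod p) a (invariantsS I S σ z) := by
  classical
  funext v
  obtain ⟨q, O⟩ := v
  induction O using Quotient.inductionOn with
  | _ x =>
    show I.placeInv S σ (q : Nat.Primes) (Quotient.mk _ x)
        (H2.coef (permFun d (ZMod p) a) (permFun_deck_equivariant σ d hd (muAct p) a) z) =
      I.placeInv S σ (q : Nat.Primes)
        (placeMap ((q : Nat.Primes) : ℕ) (isEquivMap_deckPerm d hd a⁻¹) (Quotient.mk _ x)) z
    refine congrArg (I.invMu (q : Nat.Primes)) ((H2.map_map _ _ _ _ _ _ z).trans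
      (congrFun (congrArg DFunLike.coe (H2.map_congr _ _ _ _ (by ext; rfl) ?_)) z))
    refine AddMonoidHom.ext fun φ => ?_
    show ∑ y with _, φ ((d a).symm y) = ∑ y with _, φ y
    refine Finset.sum_equiv (d a).symm (fun y => ?_) fun _ _ => rfl
    simp only [Finset.mem_filter, Finset.mem_univ, true_and]
    rw [perm_symm_apply_eq_inv]
    show _ ↔ Quotient.mk _ (d a⁻¹ y) =
      placeMap ((q : Nat.Primes) : ℕ) (isEquivMap_deckPerm d hd a⁻¹) (Quotient.mk _ x)
    constructor
    · intro h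
      exact congrArg (placeMap ((q : Nat.Primes) : ℕ) (isEquivMap_deckPerm d hd a⁻¹)) h
    · intro h
      have h2 : (Quotient.mk _ (d a (d a⁻¹ y)) : Places ((q : Nat.Primes) : ℕ) σ) =
          Quotient.mk _ (d a (d a⁻¹ x)) :=
        congrArg (placeMap ((q : Nat.Primes) : ℕ) (isEquivMap_deckPerm d hd a)) h
      rw [← Equiv.Perm.mul_apply, ← Equiv.Perm.mul_apply, ← map_mul, mul_inv_cancel, map_one,
        Equiv.Perm.one_apply, Equiv.Perm.one_apply] at h2
      exact h2

theorem H2_mu_weight (he : e * e = e) (hp2 : p ≠ 2) (I : InvSystem p) (hpS : pPrime p ∈ S)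
    (hG : GlobalInputs I S) (htr : IsTransitive σ) (hσ : IsSmoothSet (sLevels S) σ)
    (hz : HasZeta p σ) [Fintype (Σ q : S, Places ((q : Nat.Primes) : ℕ) σ)] :
    psi e (actH2 (sLevels S) (permFun_deck_equivariant σ d hd (muAct p))) =
      psi e (actQuot p (U := H1 (sLevels S) (permAct σ (sUnitsAct S)))
          (actH1 (sLevels S) (hDeckE d hd S))) *
        psi e (actSub (permFun (finPerm d hd S) (ZMod p)) (sumPoint (p := p)).ker
          (permFun_mem_sumPoint_ker (finPerm d hd S))) := by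
  have h := shortExact_sUnits hpS σ
  have hsm := isSmooth_permAct hσ (isSmooth_sUnitsAct S)
  have hmap : ∀ y : H1 (sLevels S) (permAct σ (sUnitsAct S)),
      H1.coef _ h.equiv_π y = p • y := fun y => by
    obtain ⟨c, rfl⟩ := H1.mk_surjective y
    rw [H1.map_mk, ← map_nsmul]
    rfl
  let g : H2 (sLevels S) (permAct σ (muAct p)) →+
      ↥((sumPoint (p := p) (ι := Σ q : S, Places ((q : Nat.Primes) : ℕ) σ)).ker) :=
    (invariantsS I S σ).codRestrict _ fun x => by
      funext u
      rw [sumPoint_apply, sum_sigma_places S]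
      exact (Finset.sum_coe_sort S fun q : Nat.Primes =>
        ∑ᶠ O : Places (q : ℕ) σ, I.placeInv S σ q O x).trans (sum_placeInv_total_zero I hpS hσ x)
  have hker : ∀ x, g x = 0 ↔ x ∈ (h.δ₁ hsm).range := fun x => by
    rw [← ker_muToBrauerGlobal_eq hpS hσ, AddMonoidHom.mem_ker,
      muToBrauerGlobal_eq_zero_iff I hpS hσ hp2 htr hz x]
    exact ⟨fun h' q hq O => congrFun (congrArg Subtype.val h') ⟨⟨q, hq⟩, O⟩,
      fun h' => Subtype.ext (funext fun v => h' v.1.1 v.1.2 v.2)⟩
  refine psi_of_pExact he H2.nsmul_prime_eq_zero (U := H1 (sLevels S) (permAct σ (sUnitsAct S)))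
    (h.δ₁ hsm) g (fun a u => ?_) (fun a x => Subtype.ext (invariantsS_deck d hd I a x))
    (fun u => ?_) (fun t => ?_) fun x => ?_
  · exact (h.map_δ₁ h hsm hsm (MonoidHom.id GQ) (Compat.id _) _ _ _
      (permFun_deck_equivariant σ d hd (muAct p) a) (hDeckE d hd S a) (hDeckE d hd S a)
      (fun _ => rfl) (fun _ => rfl) u).symm
  · refine (h.exact_H1_δ₁ hsm u).trans ⟨fun ⟨v, hv⟩ => ⟨v, ?_⟩, fun ⟨v, hv⟩ => ⟨v, ?_⟩⟩
    · exact (hmap v).symm.trans hv
    · exact (hmap v).trans hv
  · obtain ⟨x, hx⟩ := hG.realise X σ htr hσ hz (fun q O => t.1 ⟨q, O⟩) (by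
      have h1 := congrFun t.2 ()
      rw [sumPoint_apply, sum_sigma_places S] at h1
      exact h1)
    exact ⟨x, Subtype.ext (funext fun v => hx v.1 v.2)⟩
  · exact hker x

theorem pFin_of_fg {U : Type*} [AddCommGroup U] [Module.Finite ℤ U] : PFin p U :=
  haveI : NeZero p := ⟨hp.out.ne_zero⟩
  let h := (eulerP_of_fg (p := p) (A := U)).1
  ⟨h.2, h.1⟩

/-- The `S`-units against the functions on all places. -/
theorem units_weight (he : e * e = e) (htr : IsTransitive σ) (hσ : IsSmoothSet (sLevels S) σ) :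
    psi e (permFun (placesPerm d (isEquivMap_deckPerm d hd) S) (ZMod p)) *
        psi e (actTors p (actInv (hDeckE d hd S))) =
      psi e (permFun (1 : A →* Equiv.Perm Unit) (ZMod p)) *
        psi e (actQuot p (actInv (hDeckE d hd S))) := by
  classical
  have hσ' := isSmoothSet_allLevels_of_sLevels hσ
  obtain ⟨φ, h1, h2, h3⟩ := exists_deckUnits d (isEquivMap_deckPerm d hd) hσ' htr S
  obtain ⟨x₀⟩ := htr.1
  have : Nonempty (AllPlaces S σ) := ⟨Sum.inr (Quotient.mk _ x₀)⟩
  obtain ⟨hfg, -⟩ := finrank_tUnits_add_one hσ' htr S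
  have := hfg
  let E := invSUnitsEquiv hσ
  let ψ : (AllPlaces S σ → ℤ) →+ ↥(Inv (permAct σ (sUnitsAct S))) :=
    (E.symm : ↥(tUnits S σ) →+ ↥(Inv (permAct σ (sUnitsAct S)))).comp φ
  have hE : ∀ a u, E (actInv (hDeckE d hd S) a u) =
      unitsDeck d (isEquivMap_deckPerm d hd) S a (E u) := fun a u =>
    Subtype.ext (Subtype.ext (funext fun x => by
      show ((u.1 ((d a).symm x) : ↥(sUnitsBar S)) : Additive QBarˣ) = (E u).1.1 (d a⁻¹ x)
      rw [invSUnitsEquiv_apply, perm_symm_apply_eq_inv]))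
  have : Module.Finite ℤ ↥(Inv (permAct σ (sUnitsAct S))) :=
    Module.Finite.equiv E.symm.toIntLinearEquiv
  have : Module.Finite ℤ ↥ψ.range :=
    Module.Finite.of_surjective ψ.rangeRestrict.toIntLinearMap ψ.rangeRestrict_surjective
  have : Finite (↥(Inv (permAct σ (sUnitsAct S))) ⧸ ψ.range) := by
    have hr : φ.range.map (E.symm : ↥(tUnits S σ) →+ ↥(Inv (permAct σ (sUnitsAct S)))) =
        ψ.range := (AddMonoidHom.map_range _ _)
    exact Finite.of_equiv _ (QuotientAddGroup.congr φ.range ψ.range E.symm hr).toEquiv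
  refine psi_mul_of_lattice_hom he _ ψ (fun a f => ?_) (fun f => ?_) pFin_of_fg pFin_of_fg
  · apply E.injective
    rw [hE]
    show E (E.symm (φ _)) = unitsDeck d _ S a (E (E.symm (φ f)))
    rw [AddEquiv.apply_symm_apply, AddEquiv.apply_symm_apply, ← h1]
    refine congrArg φ (funext fun v => ?_)
    rw [permFun_apply, perm_symm_apply_eq_inv]
  · show E.symm (φ f) = 0 ↔ _
    rw [AddEquiv.map_eq_zero_iff]
    exact h2 f

omit X σ A d hd e in
/-- All weights of `Map(X, μ_p)` over `S` satisfy the identity. -/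
theorem allWeights_of_inputs (hp2 : p ≠ 2) (I : InvSystem p) (hpS : pPrime p ∈ S)
    (hG : GlobalInputs I S) : AllWeights (sLevels S) complexConjugation (muAct p) := by
  intro X _ σ A _ _ d hd htr hσ hstab _ n e he
  classical
  have hz : HasZeta p σ := fun g x h => Units.ext (by
    have h1 := hstab g x h
    rwa [muAct_apply, mul_one] at h1)
  let _ : Fintype (Σ q : S, Places ((q : Nat.Primes) : ℕ) σ) := Fintype.ofFinite _
  obtain ⟨x₀⟩ := htr.1
  have : Nonempty (Σ q : S, Places ((q : Nat.Primes) : ℕ) σ) :=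
    ⟨⟨⟨pPrime p, hpS⟩, Quotient.mk _ x₀⟩⟩
  have := finite_H1_sUnits (S := S) hσ htr
  have q1 := psi_quot_eq_psi_tors (e := e) he (U := H1 (sLevels S) (permAct σ (sUnitsAct S)))
    (actH1 (sLevels S) (hDeckE d hd S))
  have q2 := units_weight d hd he htr hσ
  rw [psi_allPlaces d hd he S, psi_permFun_sumPoint he (finPerm d hd S)] at q2
  have hC : 0 < psi e (permFun (1 : A →* Equiv.Perm Unit) (ZMod p)) := psi_pos
  have q3 : psi e (actQuot p (actInv (hDeckE d hd S))) =
      psi e (actSub (permFun (finPerm d hd S) (ZMod p)) (sumPoint (p := p)).ker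
          (permFun_mem_sumPoint_ker (finPerm d hd S))) *
        psi e (permFun (infPerm d hd) (ZMod p)) * psi e (actTors p (actInv (hDeckE d hd S))) :=
    Nat.eq_of_mul_eq_mul_left hC (q2.symm.trans (by ring))
  unfold WeightsHold
  rw [inv_mu_weight d hd hpS, H1_mu_weight d hd he hpS hσ,
    H2_mu_weight d hd he hp2 I hpS hG htr hσ hz, psi_permFun_conj d hd hp2 he, q1, q3]
  ring

end Fermat.Agent.TWEuler

end
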